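/-
Fermat/Agent/AV/DimJ76/Interface.lean  (helper76)

Programme AV (S26/S27), brick DIMJ (= F4 of the masterplan): the Jacobian of S25 is smooth of
relative dimension `g = dim H¹(C, O_C)`.

INTERFACE (a `Prop`; the proof lands as `Fermat.Agent.AV.DimJ76.dimJ : DimJStatement`):
for every curve with charts `cc`, there is a designation `D` with ALL the conclusions of S25 and,
in addition, `SmoothOfRelativeDimension (Genus41.genus cc) D.toBase`, where
`Genus41.genus cc = finrank k (QC2.unit : cc.QCA k).H1` (helper41).

ROUTE (no line bundles, no deformation theory of `Pic`): the S25 Jacobian is covered by open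
subschemes of the Hilbert charts `Spec (HV k x v)` (`RepTheorem.exists_represents`: open
immersions `j i : X i ⟶ D.P`); it is smooth, so each chart is locally standard smooth of SOME
relative dimension `n`, and `n = dim_k Der_k(HV, k_z)` at any `k`-point `z`; the tangent space of
the Hilbert chart at the ideal `I` is `Hom_{B0}(I, B0 ⧸ I)`, of dimension `g` because `B0` is a
Dedekind domain (`I ⧸ I² ≅ B0 ⧸ I`).
-/
import Mathlib
import Fermat.Agent.Jac.Genus41
import Fermat.Statements.S25

set_option autoImplicit false

universe u

open CategoryTheory CategoryTheory.Limits AlgebraicGeometry AlgebraicGeometry.RelPicard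
  NeronModelInfra GoodReductionJacobian

namespace Fermat.Agent.AV.DimJ76

/-- **Brick DIMJ**: the Jacobian with its relative dimension. -/
def DimJStatement : Prop :=
  ∀ (k : Type u) [Field k] [IsAlgClosed k] {C : Scheme.{u}} (c : C ⟶ Spec (CommRingCat.of k))
    [IsProper c] [SmoothOfRelativeDimension 1 c] [IsIntegral C]
    (ε : SchemeHomOver (𝟙 (Spec (CommRingCat.of k))) c) (cc : Fermat.Agent.Jac.CurveCharts c ε),
    ∃ D : RelativePic0Designation k c,
      Nonempty (RepresentsRelSubPic c ε (algEquivZeroCut c ε) D) ∧
        Smooth D.toBase ∧ IsProper D.toBase ∧ GeometricallyConnected D.toBase ∧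
        SmoothOfRelativeDimension (Fermat.Agent.Jac.Genus41.genus cc) D.toBase

end Fermat.Agent.AV.DimJ76
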