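/-
Fermat/Agent/AV/DimJ76/PtDer.lean  (helper76)

Programme AV, brick DIMJ: point derivations `ptDer z` of a `k`-algebra `R` at a `k`-point
`z : R →ₐ[k] k` (the Zariski tangent space), their description as lifts of `z` to the dual
numbers, invariance under localisation, and the comparison with Kähler differentials:
`finrank k (ptDer z) = finrank T Ω[T⁄k]` when `Ω[T⁄k]` is finite free.
-/
import Mathlib

set_option autoImplicit false
set_option linter.unusedSectionVars false

universe u v w

namespace Fermat.Agent.AV.DimJ76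

open TrivSqZeroExt

section Basic

variable {k : Type u} [Field k] {R : Type v} [CommRing R] [Algebra k R]

/-- **point derivations** at the `k`-point `z`. -/
def ptDer (z : R →ₐ[k] k) : Submodule k (R →ₗ[k] k) where
  carrier := {D | ∀ a b, D (a * b) = z a * D b + D a * z b}
  add_mem' := by
    intro D D' hD hD' a b
    rw [LinearMap.add_apply, LinearMap.add_apply, LinearMap.add_apply, hD a b, hD' a b]
    ring
  zero_mem' := by
    intro a b
    simp
  smul_mem' := by
    intro c D hD a b
    rw [LinearMap.smul_apply, LinearMap.smul_apply, LinearMap.smul_apply, hD a b]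
    simp only [smul_eq_mul]
    ring

theorem mem_ptDer {z : R →ₐ[k] k} {D : R →ₗ[k] k} :
    D ∈ ptDer z ↔ ∀ a b, D (a * b) = z a * D b + D a * z b := Iff.rfl

theorem ptDer_apply_one {z : R →ₐ[k] k} {D : R →ₗ[k] k} (hD : D ∈ ptDer z) : D 1 = 0 := by
  have h := hD 1 1
  rw [mul_one, map_one z, one_mul, mul_one] at h
  have h2 : D 1 + 0 = D 1 + D 1 := by rw [add_zero]; exact h
  exact (add_left_cancel h2).symm

/-- the lift `z + ε D` of `z` to the dual numbers. -/
noncomputable def ptDerLift {z : R →ₐ[k] k} (D : ptDer z) : R →ₐ[k] TrivSqZeroExt k k :=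
  AlgHom.ofLinearMap
    ((inlAlgHom k k k).toLinearMap ∘ₗ z.toLinearMap + (inrHom k k) ∘ₗ D.1)
    (by
      apply TrivSqZeroExt.ext
      · simp
      · simp [ptDer_apply_one D.2])
    (fun a b => by
      apply TrivSqZeroExt.ext
      · simp
      · simp only [LinearMap.add_apply, LinearMap.comp_apply, AlgHom.toLinearMap_apply,
          inlAlgHom_apply, inrHom_apply, snd_add, snd_inl, snd_inr, zero_add, snd_mul, fst_add,
          fst_inl, fst_inr, add_zero, smul_eq_mul, MulOpposite.smul_eq_mul_unop,
          MulOpposite.unop_op, D.2 a b])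

theorem ptDerLift_apply {z : R →ₐ[k] k} (D : ptDer z) (r : R) :
    ptDerLift D r = inl (z r) + inr (D.1 r) := rfl

theorem fst_ptDerLift {z : R →ₐ[k] k} (D : ptDer z) (r : R) : (ptDerLift D r).fst = z r := by
  rw [ptDerLift_apply]; simp

theorem snd_ptDerLift {z : R →ₐ[k] k} (D : ptDer z) (r : R) : (ptDerLift D r).snd = D.1 r := by
  rw [ptDerLift_apply]; simp

theorem fstHom_comp_ptDerLift {z : R →ₐ[k] k} (D : ptDer z) :
    (fstHom k k k).comp (ptDerLift D) = z :=
  AlgHom.ext fun r => fst_ptDerLift D r

/-- the point derivation of a lift of `z` to the dual numbers. -/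
noncomputable def ptDerOfLift {z : R →ₐ[k] k} (f : R →ₐ[k] TrivSqZeroExt k k)
    (hf : (fstHom k k k).comp f = z) : ptDer z :=
  ⟨(sndHom k k) ∘ₗ f.toLinearMap, by
    intro a b
    have hz : ∀ r, (f r).fst = z r := fun r => AlgHom.congr_fun hf r
    show (f (a * b)).snd = z a * (f b).snd + (f a).snd * z b
    rw [map_mul, snd_mul, hz, hz]
    simp only [smul_eq_mul, MulOpposite.smul_eq_mul_unop, MulOpposite.unop_op]⟩

theorem ptDerOfLift_apply {z : R →ₐ[k] k} (f : R →ₐ[k] TrivSqZeroExt k k)
    (hf : (fstHom k k k).comp f = z) (r : R) : (ptDerOfLift f hf).1 r = (f r).snd := rfl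

theorem ptDerLift_ptDerOfLift {z : R →ₐ[k] k} (f : R →ₐ[k] TrivSqZeroExt k k)
    (hf : (fstHom k k k).comp f = z) : ptDerLift (ptDerOfLift f hf) = f := by
  apply AlgHom.ext
  intro r
  rw [ptDerLift_apply, ptDerOfLift_apply, ← AlgHom.congr_fun hf r]
  exact TrivSqZeroExt.inl_fst_add_inr_snd_eq (f r)

end Basic

section Localization

variable {k : Type u} [Field k] {R : Type v} [CommRing R] [Algebra k R]
  {T : Type w} [CommRing T] [Algebra k T] [Algebra R T] [IsScalarTower k R T]
  (M : Submonoid R) [IsLocalization M T]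

/-- restriction of point derivations along `R → T`. -/
noncomputable def ptDerRestrict (z' : T →ₐ[k] k) :
    ptDer z' →ₗ[k] ptDer (z'.comp (IsScalarTower.toAlgHom k R T)) where
  toFun D := ⟨D.1 ∘ₗ (IsScalarTower.toAlgHom k R T).toLinearMap, by
    intro a b
    show D.1 (algebraMap R T (a * b)) =
      z' (algebraMap R T a) * D.1 (algebraMap R T b) + D.1 (algebraMap R T a) * z' (algebraMap R T b)
    rw [map_mul, D.2]⟩
  map_add' D D' := rfl
  map_smul' c D := rfl

theorem ptDerRestrict_apply (z' : T →ₐ[k] k) (D : ptDer z') (r : R) :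
    (ptDerRestrict (R := R) z' D).1 r = D.1 (algebraMap R T r) := rfl

include M in
theorem ptDerRestrict_injective (z' : T →ₐ[k] k) :
    Function.Injective (ptDerRestrict (R := R) z') := by
  have h1 := @LinearMap.ker_eq_bot k k (ptDer z')
    (ptDer (z'.comp (IsScalarTower.toAlgHom k R T))) _ _ _ _ _ _ _ (ptDerRestrict (R := R) z')
  refine h1.1 (LinearMap.ker_eq_bot'.2 ?_)
  intro D hD
  apply Subtype.ext
  apply LinearMap.ext
  intro t
  obtain ⟨⟨a, s⟩, hs⟩ := IsLocalization.surj M t
  simp only at hs
  have h0 : ∀ r : R, D.1 (algebraMap R T r) = 0 := by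
    intro r
    have := congrArg (fun E : ptDer (z'.comp (IsScalarTower.toAlgHom k R T)) => E.1 r) hD
    exact this
  have h2 := D.2 t (algebraMap R T s)
  rw [hs, h0, h0, mul_zero, zero_add] at h2
  have hu : IsUnit (z' (algebraMap R T s)) := (IsLocalization.map_units T s).map z'
  rcases mul_eq_zero.1 h2.symm with h | h
  · exact h
  · exact absurd h hu.ne_zero

include M in
theorem ptDerRestrict_surjective (z' : T →ₐ[k] k) :
    Function.Surjective (ptDerRestrict (R := R) z') := by
  intro D
  have hunit : ∀ y : M, IsUnit (ptDerLift D (y : R)) := by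
    intro y
    rw [TrivSqZeroExt.isUnit_iff_isUnit_fst, fst_ptDerLift]
    exact (IsLocalization.map_units T y).map z'
  let f' : T →ₐ[k] TrivSqZeroExt k k := IsLocalization.liftAlgHom (M := M) (f := ptDerLift D) hunit
  have hf' : ∀ r : R, f' (algebraMap R T r) = ptDerLift D r := fun r =>
    IsLocalization.lift_eq _ r
  have hfst : (fstHom k k k).comp f' = z' := by
    apply IsLocalization.algHom_ext (R := k) M
    apply AlgHom.ext
    intro r
    show (f' (algebraMap R T r)).fst = z' (algebraMap R T r)
    rw [hf', fst_ptDerLift]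
    rfl
  refine ⟨ptDerOfLift f' hfst, ?_⟩
  apply Subtype.ext
  apply LinearMap.ext
  intro r
  rw [ptDerRestrict_apply, ptDerOfLift_apply, hf', snd_ptDerLift]

include M in
/-- **point derivations do not change under localisation.** -/
theorem finrank_ptDer_localization (z' : T →ₐ[k] k) :
    Module.finrank k (ptDer z') =
      Module.finrank k (ptDer (z'.comp (IsScalarTower.toAlgHom k R T))) :=
  (LinearEquiv.ofBijective (ptDerRestrict (R := R) z')
    ⟨ptDerRestrict_injective M z', ptDerRestrict_surjective M z'⟩).finrank_eq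

end Localization

section Kaehler

variable {k : Type u} [Field k] {T : Type w} [CommRing T] [Algebra k T]

/-- `k` as a `T`-module via the point `z`. -/
def PtMod (_z : T →ₐ[k] k) : Type u := k

variable (z : T →ₐ[k] k)

noncomputable instance : AddCommGroup (PtMod z) := inferInstanceAs (AddCommGroup k)

noncomputable instance : Module k (PtMod z) := inferInstanceAs (Module k k)

noncomputable instance : Module T (PtMod z) :=
  (Module.compHom k z.toRingHom : Module T k)

instance : Module.Finite k (PtMod z) := inferInstanceAs (Module.Finite k k)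

/-- the underlying element of `k`. -/
def PtMod.val (x : PtMod z) : k := x

/-- the element of `PtMod z` given by an element of `k`. -/
def PtMod.of (x : k) : PtMod z := x

theorem PtMod.smul_val (t : T) (x : PtMod z) : (t • x).val = z t * x.val := rfl

theorem PtMod.ksmul_val (c : k) (x : PtMod z) : (c • x).val = c * x.val := rfl

theorem PtMod.add_val (x y : PtMod z) : (x + y).val = x.val + y.val := rfl

theorem PtMod.val_injective : Function.Injective (PtMod.val z) := fun _ _ h => h

instance : IsScalarTower k T (PtMod z) where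
  smul_assoc c t x := by
    apply PtMod.val_injective
    rw [PtMod.smul_val, PtMod.ksmul_val, PtMod.smul_val, map_smul, smul_eq_mul, mul_assoc]

instance : SMulCommClass T k (PtMod z) where
  smul_comm t c x := by
    apply PtMod.val_injective
    rw [PtMod.smul_val, PtMod.ksmul_val, PtMod.ksmul_val, PtMod.smul_val, mul_left_comm]

theorem finrank_ptMod : Module.finrank k (PtMod z) = 1 := Module.finrank_self k

/-- the point derivation of a `T`-linear form on `Ω[T⁄k]`. -/
noncomputable def kaehlerToPtDer : (Ω[T⁄k] →ₗ[T] PtMod z) →ₗ[k] ptDer z where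
  toFun L :=
    ⟨{ toFun := fun t => (L (KaehlerDifferential.D k T t)).val
       map_add' := fun a b => by rw [map_add, map_add]; rfl
       map_smul' := fun c a => by
        rw [Derivation.map_smul, LinearMap.map_smul_of_tower, PtMod.ksmul_val]
        rfl }, by
      intro a b
      show (L (KaehlerDifferential.D k T (a * b))).val =
        z a * (L (KaehlerDifferential.D k T b)).val + (L (KaehlerDifferential.D k T a)).val * z b
      rw [Derivation.leibniz, map_add, map_smul, map_smul, PtMod.add_val, PtMod.smul_val,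
        PtMod.smul_val, mul_comm (z b)]⟩
  map_add' L L' := rfl
  map_smul' c L := rfl

theorem kaehlerToPtDer_apply (L : Ω[T⁄k] →ₗ[T] PtMod z) (t : T) :
    (kaehlerToPtDer z L).1 t = (L (KaehlerDifferential.D k T t)).val := rfl

theorem kaehlerToPtDer_injective : Function.Injective (kaehlerToPtDer z) := by
  have h1 := @LinearMap.ker_eq_bot k k (Ω[T⁄k] →ₗ[T] PtMod z) (ptDer z) _ _ _ _ _ _ _
    (kaehlerToPtDer z)
  refine h1.1 (LinearMap.ker_eq_bot'.2 ?_)
  intro L hL
  have h0 : ∀ t : T, L (KaehlerDifferential.D k T t) = 0 := by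
    intro t
    have := congrArg (fun E : ptDer z => E.1 t) hL
    exact this
  apply LinearMap.ext
  intro ω
  rw [LinearMap.zero_apply]
  have hω : ω ∈ Submodule.span T (Set.range (KaehlerDifferential.D k T)) := by
    rw [KaehlerDifferential.span_range_derivation]; trivial
  induction hω using Submodule.span_induction with
  | mem x hx =>
    obtain ⟨t, rfl⟩ := hx
    exact h0 t
  | zero => rw [map_zero]
  | add x y _ _ hx hy => rw [map_add, hx, hy, add_zero]
  | smul a x _ hx => rw [map_smul, hx, smul_zero]

theorem kaehlerToPtDer_surjective : Function.Surjective (kaehlerToPtDer z) := by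
  intro D
  let D' : Derivation k T (PtMod z) :=
    Derivation.mk'
      { toFun := fun t => PtMod.of z (D.1 t)
        map_add' := fun a b => by rw [map_add]; rfl
        map_smul' := fun c a => by rw [map_smul]; rfl }
      (fun a b => by
        apply PtMod.val_injective
        show D.1 (a * b) = (a • PtMod.of z (D.1 b) + b • PtMod.of z (D.1 a)).val
        rw [PtMod.add_val, PtMod.smul_val, PtMod.smul_val, D.2 a b, mul_comm (z b)]
        rfl)
  refine ⟨D'.liftKaehlerDifferential, ?_⟩
  apply Subtype.ext
  apply LinearMap.ext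
  intro t
  rw [kaehlerToPtDer_apply, Derivation.liftKaehlerDifferential_comp_D]
  rfl

/-- **The Zariski tangent space at a `k`-point has the dimension of the rank of `Ω`.** -/
theorem finrank_ptDer_eq_finrank_kaehler [Module.Free T Ω[T⁄k]] [Module.Finite T Ω[T⁄k]] :
    Module.finrank k (ptDer z) = Module.finrank T Ω[T⁄k] := by
  have e1 : (Ω[T⁄k] →ₗ[T] PtMod z) ≃ₗ[k] ptDer z :=
    LinearEquiv.ofBijective (kaehlerToPtDer z)
      ⟨kaehlerToPtDer_injective z, kaehlerToPtDer_surjective z⟩
  have : Nontrivial T := RingHom.domain_nontrivial z.toRingHom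
  let b := Module.Free.chooseBasis T Ω[T⁄k]
  have e2 : (Module.Free.ChooseBasisIndex T Ω[T⁄k] → PtMod z) ≃ₗ[k] (Ω[T⁄k] →ₗ[T] PtMod z) :=
    b.constr k
  rw [← e1.finrank_eq, ← e2.finrank_eq, Module.finrank_pi_fintype]
  simp only [finrank_ptMod, Finset.sum_const, Finset.card_univ, smul_eq_mul, mul_one]
  exact (Module.finrank_eq_card_chooseBasisIndex T Ω[T⁄k]).symm

end Kaehler

end Fermat.Agent.AV.DimJ76
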