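/-
Fermat/Agent/AV/DimJ76/DimHom.lean  (helper76)

Programme AV, brick DIMJ: for a nonzero ideal `I` of a Dedekind domain `B` over a field `k` with
`B ⧸ I` finite-dimensional, `dim_k Hom_B(I, B ⧸ I) = dim_k B ⧸ I` (the tangent space of the
Hilbert scheme of points of a smooth curve at `I`).
-/
import Mathlib
import Fermat.Agent.Jac.P1CohChi.LineRank
import Fermat.Agent.Jac.CurveBaseChange98Point

set_option autoImplicit false
set_option linter.unusedSectionVars false
set_option linter.style.haveILetI false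

universe u

open TensorProduct

namespace Fermat.Agent.AV.DimJ76

open Fermat.Agent.Jac

section Dedekind

variable {k B : Type u} [Field k] [CommRing B] [IsDedekindDomain B] [Algebra k B]

/-- elements of `I` act as zero on `B ⧸ I`. -/
theorem smul_quot_eq_zero (I : Ideal B) {c : B} (hc : c ∈ I) (q : B ⧸ I) : c • q = 0 := by
  obtain ⟨b, rfl⟩ := Ideal.Quotient.mk_surjective q
  rw [← Ideal.Quotient.mk_eq_mk, ← Submodule.Quotient.mk_smul, Submodule.Quotient.mk_eq_zero]
  exact I.mul_mem_right b hc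

/-- a `B`-linear map `I → B ⧸ I` kills `I * I`. -/
theorem linearMap_apply_of_mem_mul (I : Ideal B) (θ : I →ₗ[B] B ⧸ I) (y : I)
    (hy : (y : B) ∈ I * I) : θ y = 0 := by
  obtain ⟨y, hyI⟩ := y
  simp only at hy
  induction hy using Submodule.mul_induction_on' with
  | mem_mul_mem c hc d hd =>
    have h : (⟨c * d, hyI⟩ : I) = c • (⟨d, hd⟩ : I) := Subtype.ext rfl
    rw [h, map_smul]
    exact smul_quot_eq_zero I hc _
  | add x hx y hy hx' hy' =>
    have hxI : x ∈ I := Ideal.mul_le_right hx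
    have hyI' : y ∈ I := Ideal.mul_le_right hy
    have h : (⟨x + y, hyI⟩ : I) = ⟨x, hxI⟩ + ⟨y, hyI'⟩ := Subtype.ext rfl
    rw [h, map_add, hx' hxI, hy' hyI', add_zero]

/-- **The tangent space of the Hilbert scheme of points of a smooth curve** at `I` has the
dimension of `B ⧸ I`. -/
theorem finrank_linearMap_ideal_quot (I : Ideal B) (hI : I ≠ ⊥) [Module.Finite k (B ⧸ I)] :
    Module.finrank k (I →ₗ[B] B ⧸ I) = Module.finrank k (B ⧸ I) := by
  obtain ⟨a, ha⟩ := IsDedekindDomain.exists_sup_span_eq (I := I * I) (J := I) Ideal.mul_le_right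
    (mul_ne_zero hI hI)
  have haI : a ∈ I := by
    rw [← ha]
    exact Ideal.mem_sup_right (Ideal.mem_span_singleton_self a)
  -- evaluation at `a`
  let ev : (I →ₗ[B] B ⧸ I) →ₗ[k] B ⧸ I :=
    { toFun := fun θ => θ ⟨a, haI⟩
      map_add' := fun θ θ' => rfl
      map_smul' := fun c θ => rfl }
  have hdecomp : ∀ x : I, ∃ (y : I) (b : B), (y : B) ∈ I * I ∧ x = y + b • (⟨a, haI⟩ : I) := by
    intro x
    have hx : (x : B) ∈ I * I ⊔ Ideal.span {a} := by rw [ha]; exact x.2
    obtain ⟨y, hy, z, hz, hxyz⟩ := Submodule.mem_sup.mp hx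
    obtain ⟨b, rfl⟩ := Ideal.mem_span_singleton'.mp hz
    exact ⟨⟨y, Ideal.mul_le_right hy⟩, b, hy, Subtype.ext hxyz.symm⟩
  have hinj : Function.Injective ev := by
    rw [← LinearMap.ker_eq_bot, LinearMap.ker_eq_bot']
    intro θ hθ
    apply LinearMap.ext
    intro x
    obtain ⟨y, b, hy, rfl⟩ := hdecomp x
    have h0 : θ ⟨a, haI⟩ = 0 := hθ
    rw [map_add, map_smul, h0, smul_zero, add_zero, LinearMap.zero_apply]
    exact linearMap_apply_of_mem_mul I θ y hy
  -- the quotient `I ⧸ I • ⊤` is generated by the class of `a`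
  haveI : Module.Invertible B I := CurveBaseChange98Point.invertible_of_ne_bot I hI
  let φ : (B ⧸ I) →ₗ[B] (I ⧸ (I • ⊤ : Submodule B I)) :=
    Submodule.liftQ I ((LinearMap.toSpanSingleton B _
      (Submodule.Quotient.mk (⟨a, haI⟩ : I) : I ⧸ (I • ⊤ : Submodule B I)))) (by
        intro c hc
        rw [LinearMap.mem_ker, LinearMap.toSpanSingleton_apply, ← Submodule.Quotient.mk_smul,
          Submodule.Quotient.mk_eq_zero]
        exact Submodule.smul_mem_smul hc Submodule.mem_top)
  have hφ : ∀ b : B, φ (Ideal.Quotient.mk I b) =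
      Submodule.Quotient.mk (b • (⟨a, haI⟩ : I)) := fun b => rfl
  have hφsurj : Function.Surjective φ := by
    intro z
    obtain ⟨x, rfl⟩ := Submodule.Quotient.mk_surjective _ z
    obtain ⟨y, b, hy, rfl⟩ := hdecomp x
    refine ⟨Ideal.Quotient.mk I b, ?_⟩
    have hy0 : (Submodule.Quotient.mk y : I ⧸ (I • ⊤ : Submodule B I)) = 0 := by
      rw [Submodule.Quotient.mk_eq_zero]
      -- `y ∈ I * I` means `y ∈ I • ⊤`
      obtain ⟨y, hyI⟩ := y
      simp only at hy
      induction hy using Submodule.mul_induction_on' with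
      | mem_mul_mem c hc d hd =>
        have h : (⟨c * d, hyI⟩ : I) = c • (⟨d, hd⟩ : I) := Subtype.ext rfl
        rw [h]
        exact Submodule.smul_mem_smul hc Submodule.mem_top
      | add x hx y hy hx' hy' =>
        have hxI : x ∈ I := Ideal.mul_le_right hx
        have hyI' : y ∈ I := Ideal.mul_le_right hy
        have h : (⟨x + y, hyI⟩ : I) = ⟨x, hxI⟩ + ⟨y, hyI'⟩ := Subtype.ext rfl
        rw [h]
        exact Submodule.add_mem _ (hx' hxI) (hy' hyI')
    rw [hφ, Submodule.Quotient.mk_add, hy0, zero_add]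
  -- equal dimensions
  have hT : Module.Finite k ((B ⧸ I) ⊗[B] I) := by
    have h1 : Module.Finite (B ⧸ I) ((B ⧸ I) ⊗[B] I) := inferInstance
    exact Module.Finite.trans (B ⧸ I) _
  have hfinQ : Module.Finite k (I ⧸ (I • ⊤ : Submodule B I)) :=
    Module.Finite.equiv ((TensorProduct.quotTensorEquivQuotSMul I I).restrictScalars k)
  have hdim : Module.finrank k (I ⧸ (I • ⊤ : Submodule B I)) = Module.finrank k (B ⧸ I) := by
    have h1 : Module.finrank k ((B ⧸ I) ⊗[B] I) = Module.finrank k (B ⧸ I) :=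
      P1CohChi.LineRank.finrank_invertible_of_finite (B ⧸ I) ((B ⧸ I) ⊗[B] I)
    rw [← h1]
    exact ((TensorProduct.quotTensorEquivQuotSMul I I).restrictScalars k).finrank_eq.symm
  have hφinj : Function.Injective φ := by
    have h := (LinearMap.injective_iff_surjective_of_finrank_eq_finrank
      (f := φ.restrictScalars k) hdim.symm).2 hφsurj
    exact h
  let φe : (B ⧸ I) ≃ₗ[B] (I ⧸ (I • ⊤ : Submodule B I)) :=
    LinearEquiv.ofBijective φ ⟨hφinj, hφsurj⟩
  have hsurj : Function.Surjective ev := by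
    intro q
    let θ : I →ₗ[B] B ⧸ I :=
      (LinearMap.mulRight B q : (B ⧸ I) →ₗ[B] B ⧸ I) ∘ₗ φe.symm.toLinearMap ∘ₗ
        (Submodule.mkQ (I • ⊤ : Submodule B I))
    refine ⟨θ, ?_⟩
    show (LinearMap.mulRight B q) (φe.symm (Submodule.Quotient.mk (⟨a, haI⟩ : I))) = q
    have h1 : φe (Ideal.Quotient.mk I 1) = Submodule.Quotient.mk (⟨a, haI⟩ : I) := by
      show φ (Ideal.Quotient.mk I 1) = _
      rw [hφ, one_smul]
    rw [← h1, LinearEquiv.symm_apply_apply, LinearMap.mulRight_apply, map_one, one_mul]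
  exact (LinearEquiv.ofBijective ev ⟨hinj, hsurj⟩).finrank_eq

end Dedekind

end Fermat.Agent.AV.DimJ76
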