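/-
Fermat/Agent/AV/DimJ76/DualMat.lean  (helper76)

Programme AV, brick DIMJ: matrices and vectors over the dual numbers `k[ε] = TrivSqZeroExt k k`,
decomposed into their `fst` and `snd` parts.
-/
import Mathlib

set_option autoImplicit false
set_option linter.unusedSectionVars false

universe u

namespace Fermat.Agent.AV.DimJ76

open TrivSqZeroExt

variable {k : Type u} [CommRing k] {m n l : Type*} [Fintype m] [Fintype n] [Fintype l]

/-- the `fst` part of a matrix over the dual numbers. -/
def fstM (M : Matrix m n (TrivSqZeroExt k k)) : Matrix m n k := M.map TrivSqZeroExt.fst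

/-- the `snd` part of a matrix over the dual numbers. -/
def sndM (M : Matrix m n (TrivSqZeroExt k k)) : Matrix m n k := M.map TrivSqZeroExt.snd

/-- the matrix over the dual numbers with given parts. -/
def mkM (M1 M2 : Matrix m n k) : Matrix m n (TrivSqZeroExt k k) :=
  Matrix.of fun i j => TrivSqZeroExt.inl (M1 i j) + TrivSqZeroExt.inr (M2 i j)

@[simp] theorem fstM_apply (M : Matrix m n (TrivSqZeroExt k k)) (i : m) (j : n) :
    fstM M i j = (M i j).fst := rfl

@[simp] theorem sndM_apply (M : Matrix m n (TrivSqZeroExt k k)) (i : m) (j : n) :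
    sndM M i j = (M i j).snd := rfl

@[simp] theorem fstM_mkM (M1 M2 : Matrix m n k) : fstM (mkM M1 M2) = M1 := by
  ext i j
  simp [mkM]

@[simp] theorem sndM_mkM (M1 M2 : Matrix m n k) : sndM (mkM M1 M2) = M2 := by
  ext i j
  simp [mkM]

theorem dualMat_ext {M N : Matrix m n (TrivSqZeroExt k k)} (h1 : fstM M = fstM N)
    (h2 : sndM M = sndM N) : M = N := by
  ext i j
  · exact congrFun (congrFun h1 i) j
  · exact congrFun (congrFun h2 i) j

theorem mkM_fstM_sndM (M : Matrix m n (TrivSqZeroExt k k)) : mkM (fstM M) (sndM M) = M :=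
  dualMat_ext (fstM_mkM _ _) (sndM_mkM _ _)

theorem fstM_mul (M : Matrix m n (TrivSqZeroExt k k)) (N : Matrix n l (TrivSqZeroExt k k)) :
    fstM (M * N) = fstM M * fstM N := by
  ext i j
  simp only [fstM_apply, Matrix.mul_apply, TrivSqZeroExt.fst_sum, TrivSqZeroExt.fst_mul]

theorem sndM_mul (M : Matrix m n (TrivSqZeroExt k k)) (N : Matrix n l (TrivSqZeroExt k k)) :
    sndM (M * N) = fstM M * sndM N + sndM M * fstM N := by
  ext i j
  simp only [sndM_apply, fstM_apply, Matrix.mul_apply, Matrix.add_apply, TrivSqZeroExt.snd_sum,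
    TrivSqZeroExt.snd_mul, ← Finset.sum_add_distrib]
  refine Finset.sum_congr rfl fun x _ => ?_
  simp only [smul_eq_mul, MulOpposite.smul_eq_mul_unop, MulOpposite.unop_op]

theorem fstM_add (M N : Matrix m n (TrivSqZeroExt k k)) : fstM (M + N) = fstM M + fstM N := by
  ext i j
  simp

theorem sndM_add (M N : Matrix m n (TrivSqZeroExt k k)) : sndM (M + N) = sndM M + sndM N := by
  ext i j
  simp

theorem fstM_one [DecidableEq m] : fstM (1 : Matrix m m (TrivSqZeroExt k k)) = 1 := by
  ext i j
  by_cases h : i = j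
  · subst h; simp
  · simp [Matrix.one_apply_ne h]

theorem sndM_one [DecidableEq m] : sndM (1 : Matrix m m (TrivSqZeroExt k k)) = 0 := by
  ext i j
  by_cases h : i = j
  · subst h; simp
  · simp [Matrix.one_apply_ne h]

/-- `fst` part of a matrix-vector product. -/
theorem fst_mulVec (M : Matrix m n (TrivSqZeroExt k k)) (w : n → TrivSqZeroExt k k) (i : m) :
    (M.mulVec w i).fst = (fstM M).mulVec (fun j => (w j).fst) i := by
  simp only [Matrix.mulVec, dotProduct, TrivSqZeroExt.fst_sum, TrivSqZeroExt.fst_mul, fstM_apply]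

/-- `snd` part of a matrix-vector product. -/
theorem snd_mulVec (M : Matrix m n (TrivSqZeroExt k k)) (w : n → TrivSqZeroExt k k) (i : m) :
    (M.mulVec w i).snd = (fstM M).mulVec (fun j => (w j).snd) i +
      (sndM M).mulVec (fun j => (w j).fst) i := by
  simp only [Matrix.mulVec, dotProduct, TrivSqZeroExt.snd_sum, TrivSqZeroExt.snd_mul, fstM_apply,
    sndM_apply, ← Finset.sum_add_distrib]
  refine Finset.sum_congr rfl fun x _ => ?_
  simp only [smul_eq_mul, MulOpposite.smul_eq_mul_unop, MulOpposite.unop_op]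

end Fermat.Agent.AV.DimJ76
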