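/-
Fermat/Agent/AV/DimJ76/TangentMatPt.lean  (helper76)

Programme AV, brick DIMJ: the tangent space of the functor of matrix points (helper87's
`HilbChart87.MatPt`) at a `k`-point `p0`, as a `k`-submodule `tangent p0`, and its identification
with the set of lifts of `p0` to the dual numbers `k[ε]`.
-/
import Mathlib
import Fermat.Agent.AV.DimJ76.DualMat
import Fermat.Agent.Jac.HilbChart87.Main

set_option autoImplicit false
set_option linter.unusedSectionVars false

universe u v

namespace Fermat.Agent.AV.DimJ76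

open TrivSqZeroExt Fermat.Agent.Jac.HilbChart87

variable {k : Type u} [Field k] {B : Type v} [CommRing B] [Algebra k B] {g : ℕ} {v : Fin g → B}

/-- **The tangent space** of the functor of matrix points at the `k`-point `p0`: pairs `(δ, η)`
with `δ` a `ρ`-derivation `B → M_g(k)` and `η ∈ k^g` such that `(ρ + ε δ, e + ε η)` is a matrix
point over `k[ε]`. -/
def tangent (p0 : MatPt k v k) :
    Submodule k ((B →ₗ[k] Matrix (Fin g) (Fin g) k) × (Fin g → k)) where
  carrier := {t | (∀ a b, t.1 (a * b) = p0.ρ a * t.1 b + t.1 a * p0.ρ b) ∧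
    ∀ i, (p0.ρ (v i)).mulVec t.2 + (t.1 (v i)).mulVec p0.e = 0}
  add_mem' := by
    rintro s t ⟨hs1, hs2⟩ ⟨ht1, ht2⟩
    refine ⟨fun a b => ?_, fun i => ?_⟩
    · simp only [Prod.fst_add, LinearMap.add_apply, hs1 a b, ht1 a b, mul_add, add_mul]
      abel
    · simp only [Prod.fst_add, Prod.snd_add, LinearMap.add_apply, Matrix.mulVec_add,
        Matrix.add_mulVec]
      rw [add_add_add_comm, hs2 i, ht2 i, add_zero]
  zero_mem' := by
    refine ⟨fun a b => ?_, fun i => ?_⟩
    · simp
    · simp
  smul_mem' := by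
    rintro c t ⟨ht1, ht2⟩
    refine ⟨fun a b => ?_, fun i => ?_⟩
    · simp only [Prod.smul_fst, LinearMap.smul_apply, ht1 a b, smul_add, Matrix.mul_smul,
        Matrix.smul_mul]
    · simp only [Prod.smul_fst, Prod.smul_snd, LinearMap.smul_apply, Matrix.mulVec_smul,
        Matrix.smul_mulVec]
      rw [← smul_add, ht2 i, smul_zero]

theorem mem_tangent {p0 : MatPt k v k}
    {t : (B →ₗ[k] Matrix (Fin g) (Fin g) k) × (Fin g → k)} :
    t ∈ tangent p0 ↔ (∀ a b, t.1 (a * b) = p0.ρ a * t.1 b + t.1 a * p0.ρ b) ∧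
      ∀ i, (p0.ρ (v i)).mulVec t.2 + (t.1 (v i)).mulVec p0.e = 0 := Iff.rfl

/-- A `ρ`-derivation kills `1`. -/
theorem tangent_apply_one {p0 : MatPt k v k}
    {t : (B →ₗ[k] Matrix (Fin g) (Fin g) k) × (Fin g → k)} (ht : t ∈ tangent p0) :
    t.1 1 = 0 := by
  have h := ht.1 1 1
  rw [mul_one, map_one p0.ρ, one_mul, mul_one] at h
  have h2 : t.1 1 + 0 = t.1 1 + t.1 1 := by rw [add_zero]; exact h
  exact (add_left_cancel h2).symm

/-- the lifts of `p0` to the dual numbers. -/
abbrev Lifts (p0 : MatPt k v k) : Type _ :=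
  {p : MatPt k v (TrivSqZeroExt k k) // p.map (TrivSqZeroExt.fstHom k k k) = p0}

theorem fstM_ρ_of_lift {p0 : MatPt k v k} (p : Lifts p0) (b : B) : fstM (p.1.ρ b) = p0.ρ b := by
  have h := congrArg (fun q : MatPt k v k => q.ρ b) p.2
  exact h

theorem fst_e_of_lift {p0 : MatPt k v k} (p : Lifts p0) (i : Fin g) : (p.1.e i).fst = p0.e i := by
  have h := congrArg (fun q : MatPt k v k => q.e i) p.2
  exact h

/-- the `snd` part of the representation of a lift, as a linear map. -/
noncomputable def liftδ {p0 : MatPt k v k} (p : Lifts p0) : B →ₗ[k] Matrix (Fin g) (Fin g) k :=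
  (LinearMap.mapMatrix (TrivSqZeroExt.sndHom k k)) ∘ₗ p.1.ρ.toLinearMap

theorem liftδ_apply {p0 : MatPt k v k} (p : Lifts p0) (b : B) : liftδ p b = sndM (p.1.ρ b) := rfl

/-- the tangent vector of a lift. -/
noncomputable def liftToTangent {p0 : MatPt k v k} (p : Lifts p0) : tangent p0 :=
  ⟨(liftδ p, fun i => (p.1.e i).snd), by
    refine ⟨fun a b => ?_, fun i => ?_⟩
    · show liftδ p (a * b) = p0.ρ a * liftδ p b + liftδ p a * p0.ρ b
      rw [liftδ_apply, liftδ_apply, liftδ_apply, map_mul, sndM_mul, fstM_ρ_of_lift,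
        fstM_ρ_of_lift]
    · funext j
      have h : (((p.1.ρ (v i)).mulVec p.1.e) j).snd =
          ((Pi.single i 1 : Fin g → TrivSqZeroExt k k) j).snd := by rw [p.1.cyc i]
      rw [snd_mulVec, fstM_ρ_of_lift] at h
      have h2 : (fun j => (p.1.e j).fst) = p0.e := funext fun j => fst_e_of_lift p j
      rw [h2] at h
      have h3 : ((Pi.single i 1 : Fin g → TrivSqZeroExt k k) j).snd = 0 := by
        by_cases hj : j = i
        · subst hj; simp
        · rw [Pi.single_eq_of_ne hj]; rfl
      rw [h3] at h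
      exact h⟩

/-- the linear map underlying the representation `ρ + ε δ`. -/
noncomputable def tangentρLin (p0 : MatPt k v k)
    (t : (B →ₗ[k] Matrix (Fin g) (Fin g) k) × (Fin g → k)) :
    B →ₗ[k] Matrix (Fin g) (Fin g) (TrivSqZeroExt k k) :=
  (LinearMap.mapMatrix (TrivSqZeroExt.inlAlgHom k k k).toLinearMap) ∘ₗ p0.ρ.toLinearMap +
    (LinearMap.mapMatrix (TrivSqZeroExt.inrHom k k)) ∘ₗ t.1

theorem tangentρLin_apply (p0 : MatPt k v k)
    (t : (B →ₗ[k] Matrix (Fin g) (Fin g) k) × (Fin g → k)) (b : B) :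
    tangentρLin p0 t b = mkM (p0.ρ b) (t.1 b) := by
  ext i j <;> simp [tangentρLin, mkM]

/-- the representation `ρ + ε δ` over the dual numbers. -/
noncomputable def tangentρ {p0 : MatPt k v k} (t : tangent p0) :
    B →ₐ[k] Matrix (Fin g) (Fin g) (TrivSqZeroExt k k) :=
  AlgHom.ofLinearMap (tangentρLin p0 t.1)
    (by
      rw [tangentρLin_apply, map_one p0.ρ, tangent_apply_one t.2]
      exact dualMat_ext (by rw [fstM_mkM, fstM_one]) (by rw [sndM_mkM, sndM_one]))
    (fun a b => by
      rw [tangentρLin_apply, tangentρLin_apply, tangentρLin_apply]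
      refine dualMat_ext ?_ ?_
      · rw [fstM_mul, fstM_mkM, fstM_mkM, fstM_mkM, map_mul]
      · rw [sndM_mul, sndM_mkM, sndM_mkM, sndM_mkM, fstM_mkM, fstM_mkM]
        exact t.2.1 a b)

theorem tangentρ_apply {p0 : MatPt k v k} (t : tangent p0) (b : B) :
    tangentρ t b = mkM (p0.ρ b) (t.1.1 b) := by
  rw [tangentρ, AlgHom.ofLinearMap_apply, tangentρLin_apply]

/-- the vector `e + ε η` over the dual numbers. -/
def tangentE {p0 : MatPt k v k} (t : tangent p0) : Fin g → TrivSqZeroExt k k :=
  fun i => TrivSqZeroExt.inl (p0.e i) + TrivSqZeroExt.inr (t.1.2 i)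

theorem tangentE_fst {p0 : MatPt k v k} (t : tangent p0) :
    (fun j => (tangentE t j).fst) = p0.e := by
  funext j; simp [tangentE]

theorem tangentE_snd {p0 : MatPt k v k} (t : tangent p0) :
    (fun j => (tangentE t j).snd) = t.1.2 := by
  funext j; simp [tangentE]

/-- the matrix point over the dual numbers with tangent vector `t`. -/
noncomputable def tangentPt {p0 : MatPt k v k} (t : tangent p0) :
    MatPt k v (TrivSqZeroExt k k) where
  ρ := tangentρ t
  e := tangentE t
  cyc i := by
    funext j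
    rw [tangentρ_apply]
    apply TrivSqZeroExt.ext
    · rw [fst_mulVec, fstM_mkM, tangentE_fst, p0.cyc i]
      by_cases hj : j = i
      · subst hj; simp
      · rw [Pi.single_eq_of_ne hj, Pi.single_eq_of_ne hj]; rfl
    · rw [snd_mulVec, fstM_mkM, sndM_mkM, tangentE_fst, tangentE_snd]
      have h := congrFun (t.2.2 i) j
      rw [Pi.add_apply] at h
      rw [h]
      by_cases hj : j = i
      · subst hj; simp
      · rw [Pi.single_eq_of_ne hj]; rfl

/-- the lift of `p0` with tangent vector `t`. -/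
noncomputable def tangentToLift {p0 : MatPt k v k} (t : tangent p0) : Lifts p0 :=
  ⟨tangentPt t, by
    apply MatPt.ext'
    · apply AlgHom.ext
      intro b
      show fstM (tangentρ t b) = p0.ρ b
      rw [tangentρ_apply, fstM_mkM]
    · funext i
      show (tangentE t i).fst = p0.e i
      exact congrFun (tangentE_fst t) i⟩

theorem tangentToLift_ρ {p0 : MatPt k v k} (t : tangent p0) (b : B) :
    (tangentToLift t).1.ρ b = mkM (p0.ρ b) (t.1.1 b) :=
  tangentρ_apply t b

theorem tangentToLift_e {p0 : MatPt k v k} (t : tangent p0) (i : Fin g) :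
    (tangentToLift t).1.e i = TrivSqZeroExt.inl (p0.e i) + TrivSqZeroExt.inr (t.1.2 i) := rfl

/-- **Lifts to the dual numbers are tangent vectors.** -/
noncomputable def liftsEquivTangent (p0 : MatPt k v k) : Lifts p0 ≃ tangent p0 where
  toFun := liftToTangent
  invFun := tangentToLift
  left_inv p := by
    apply Subtype.ext
    apply MatPt.ext'
    · apply AlgHom.ext
      intro b
      rw [tangentToLift_ρ]
      show mkM (p0.ρ b) (sndM (p.1.ρ b)) = p.1.ρ b
      rw [← fstM_ρ_of_lift p b, mkM_fstM_sndM]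
    · funext i
      rw [tangentToLift_e]
      show TrivSqZeroExt.inl (p0.e i) + TrivSqZeroExt.inr (p.1.e i).snd = p.1.e i
      rw [← fst_e_of_lift p i, TrivSqZeroExt.inl_fst_add_inr_snd_eq]
  right_inv t := by
    apply Subtype.ext
    apply Prod.ext
    · apply LinearMap.ext
      intro b
      show sndM ((tangentToLift t).1.ρ b) = t.1.1 b
      rw [tangentToLift_ρ, sndM_mkM]
    · funext i
      show ((tangentToLift t).1.e i).snd = t.1.2 i
      rw [tangentToLift_e]
      simp

end Fermat.Agent.AV.DimJ76
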