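/-
Fermat/Agent/AV/DimJ76/TangentHom.lean  (helper76)

Programme AV, brick DIMJ: the tangent space `tangent p0` of the functor of matrix points at a
`k`-point `p0` is `Hom_B(I, B ⧸ I)` for the ideal `I = ptIdeal p0` of the point; for a Dedekind
domain `B` it therefore has dimension `g`.
-/
import Mathlib
import Fermat.Agent.AV.DimJ76.TangentMatPt
import Fermat.Agent.AV.DimJ76.DimHom

set_option autoImplicit false
set_option linter.unusedSectionVars false

universe u

namespace Fermat.Agent.AV.DimJ76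

open Fermat.Agent.Jac.HilbChart87

variable {k : Type u} [Field k] {B : Type u} [CommRing B] [Algebra k B] {g : ℕ} {v : Fin g → B}

section PiLin

variable (p0 : MatPt k v k)

/-- the projection `B → k^g`, `b ↦ ρ(b) e`. -/
noncomputable def piLin : B →ₗ[k] (Fin g → k) where
  toFun b := (p0.ρ b).mulVec p0.e
  map_add' a b := by rw [map_add, Matrix.add_mulVec]
  map_smul' c b := by rw [map_smul, Matrix.smul_mulVec, RingHom.id_apply]

theorem piLin_apply (b : B) : piLin p0 b = (p0.ρ b).mulVec p0.e := rfl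

theorem piLin_mul (a b : B) : piLin p0 (a * b) = (p0.ρ a).mulVec (piLin p0 b) := by
  rw [piLin_apply, piLin_apply, map_mul, Matrix.mulVec_mulVec]

theorem piLin_v (i : Fin g) : piLin p0 (v i) = Pi.single i 1 := p0.cyc i

theorem piLin_one : piLin p0 1 = p0.e := by
  rw [piLin_apply, map_one, Matrix.one_mulVec]

/-- the section `k^g → B`, `m ↦ ∑ m_i v_i`. -/
noncomputable def sLin (v : Fin g → B) : (Fin g → k) →ₗ[k] B where
  toFun m := ∑ i, m i • v i
  map_add' m m' := by simp only [Pi.add_apply, add_smul, Finset.sum_add_distrib]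
  map_smul' c m := by
    simp only [Pi.smul_apply, smul_eq_mul, RingHom.id_apply, Finset.smul_sum, mul_smul]

theorem sLin_apply (m : Fin g → k) : sLin v m = ∑ i, m i • v i := rfl

theorem sLin_single (i : Fin g) : sLin v (Pi.single i (1 : k)) = v i := by
  rw [sLin_apply, Finset.sum_eq_single i]
  · rw [Pi.single_eq_same, one_smul]
  · intro j _ hj
    rw [Pi.single_eq_of_ne hj, zero_smul]
  · intro h
    exact absurd (Finset.mem_univ i) h

theorem piLin_sLin (m : Fin g → k) : piLin p0 (sLin v m) = m := by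
  rw [sLin_apply, map_sum]
  funext j
  rw [Finset.sum_apply, Finset.sum_eq_single j]
  · rw [map_smul, piLin_v, Pi.smul_apply, Pi.single_eq_same, smul_eq_mul, mul_one]
  · intro i _ hi
    rw [map_smul, piLin_v, Pi.smul_apply, Pi.single_eq_of_ne (Ne.symm hi), smul_zero]
  · intro h
    exact absurd (Finset.mem_univ j) h

/-- **the ideal of the point `p0`**: the kernel of `b ↦ ρ(b) e`. -/
noncomputable def ptIdeal : Ideal B where
  carrier := {b | piLin p0 b = 0}
  add_mem' := by
    intro a b ha hb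
    show piLin p0 (a + b) = 0
    rw [map_add, show piLin p0 a = 0 from ha, show piLin p0 b = 0 from hb, add_zero]
  zero_mem' := map_zero _
  smul_mem' := by
    intro a b hb
    show piLin p0 (a * b) = 0
    rw [piLin_mul, show piLin p0 b = 0 from hb, Matrix.mulVec_zero]

theorem mem_ptIdeal {b : B} : b ∈ ptIdeal p0 ↔ piLin p0 b = 0 := Iff.rfl

theorem sub_sLin_mem (b : B) : b - sLin v (piLin p0 b) ∈ ptIdeal p0 := by
  rw [mem_ptIdeal, map_sub, piLin_sLin, sub_self]

/-- the inverse of the identification `B ⧸ I ≃ k^g`. -/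
noncomputable def qinv : (Fin g → k) →ₗ[k] B ⧸ ptIdeal p0 :=
  (Ideal.Quotient.mkₐ k (ptIdeal p0)).toLinearMap ∘ₗ sLin v

theorem qinv_apply (m : Fin g → k) : qinv p0 m = Ideal.Quotient.mk (ptIdeal p0) (sLin v m) := rfl

theorem qinv_piLin (b : B) : qinv p0 (piLin p0 b) = Ideal.Quotient.mk (ptIdeal p0) b := by
  rw [qinv_apply, eq_comm, Ideal.Quotient.eq]
  exact sub_sLin_mem p0 b

theorem qinv_injective : Function.Injective (qinv p0) := by
  rw [← LinearMap.ker_eq_bot, LinearMap.ker_eq_bot']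
  intro m hm
  rw [qinv_apply, Ideal.Quotient.eq_zero_iff_mem, mem_ptIdeal, piLin_sLin] at hm
  exact hm

theorem qinv_surjective : Function.Surjective (qinv p0) := by
  intro x
  obtain ⟨b, rfl⟩ := Ideal.Quotient.mk_surjective x
  exact ⟨piLin p0 b, qinv_piLin p0 b⟩

/-- `B ⧸ I ≃ k^g`. -/
noncomputable def qEquiv : (Fin g → k) ≃ₗ[k] B ⧸ ptIdeal p0 :=
  LinearEquiv.ofBijective (qinv p0) ⟨qinv_injective p0, qinv_surjective p0⟩

theorem qEquiv_apply (m : Fin g → k) : qEquiv p0 m = qinv p0 m := rfl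

theorem qEquiv_symm_mk (b : B) :
    (qEquiv p0).symm (Ideal.Quotient.mk (ptIdeal p0) b) = piLin p0 b := by
  rw [LinearEquiv.symm_apply_eq, qEquiv_apply, qinv_piLin]

theorem smul_qinv (a : B) (m : Fin g → k) :
    a • qinv p0 m = qinv p0 ((p0.ρ a).mulVec m) := by
  rw [qinv_apply, qinv_apply, ← Ideal.Quotient.mk_eq_mk, ← Submodule.Quotient.mk_smul,
    Ideal.Quotient.mk_eq_mk, Ideal.Quotient.eq, mem_ptIdeal, map_sub,
    smul_eq_mul, piLin_mul, piLin_sLin, piLin_sLin, sub_self]

theorem qEquiv_symm_smul (a : B) (x : B ⧸ ptIdeal p0) :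
    (qEquiv p0).symm (a • x) = (p0.ρ a).mulVec ((qEquiv p0).symm x) := by
  obtain ⟨m, rfl⟩ := (qEquiv p0).surjective x
  rw [LinearEquiv.symm_apply_apply, qEquiv_apply, smul_qinv, ← qEquiv_apply,
    LinearEquiv.symm_apply_apply]

instance finite_quot_ptIdeal : Module.Finite k (B ⧸ ptIdeal p0) :=
  Module.Finite.equiv (qEquiv p0)

theorem finrank_quot_ptIdeal : Module.finrank k (B ⧸ ptIdeal p0) = g := by
  rw [← (qEquiv p0).finrank_eq, Module.finrank_fintype_fun_eq_card, Fintype.card_fin]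

/-- if `B` is not finite over `k`, the ideal of a point is nonzero. -/
theorem ptIdeal_ne_bot (hB : ¬ Module.Finite k B) : ptIdeal p0 ≠ ⊥ := by
  intro h
  apply hB
  have e1 : (B ⧸ ptIdeal p0) ≃ₗ[k] B := by
    rw [h]
    exact (AlgEquiv.quotientBot k B).toLinearEquiv
  exact Module.Finite.equiv ((qEquiv p0).trans e1)

end PiLin

section Psi

variable (p0 : MatPt k v k)

/-- `ψ_t(b) = ρ(b) η + δ(b) e`. -/
noncomputable def psiLin (t : (B →ₗ[k] Matrix (Fin g) (Fin g) k) × (Fin g → k)) :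
    B →ₗ[k] (Fin g → k) where
  toFun b := (p0.ρ b).mulVec t.2 + (t.1 b).mulVec p0.e
  map_add' a b := by
    rw [map_add, map_add, Matrix.add_mulVec, Matrix.add_mulVec]
    abel
  map_smul' c b := by
    rw [map_smul, map_smul, Matrix.smul_mulVec, Matrix.smul_mulVec, RingHom.id_apply, smul_add]

theorem psiLin_apply (t : (B →ₗ[k] Matrix (Fin g) (Fin g) k) × (Fin g → k)) (b : B) :
    psiLin p0 t b = (p0.ρ b).mulVec t.2 + (t.1 b).mulVec p0.e := rfl

theorem psiLin_add (t t' : (B →ₗ[k] Matrix (Fin g) (Fin g) k) × (Fin g → k)) :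
    psiLin p0 (t + t') = psiLin p0 t + psiLin p0 t' := by
  apply LinearMap.ext
  intro b
  rw [LinearMap.add_apply, psiLin_apply, psiLin_apply, psiLin_apply, Prod.snd_add, Prod.fst_add,
    LinearMap.add_apply, Matrix.mulVec_add, Matrix.add_mulVec]
  abel

theorem psiLin_smul (c : k) (t : (B →ₗ[k] Matrix (Fin g) (Fin g) k) × (Fin g → k)) :
    psiLin p0 (c • t) = c • psiLin p0 t := by
  apply LinearMap.ext
  intro b
  rw [LinearMap.smul_apply, psiLin_apply, psiLin_apply, Prod.smul_snd, Prod.smul_fst,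
    LinearMap.smul_apply, Matrix.mulVec_smul, Matrix.smul_mulVec, smul_add]

variable {p0}

theorem psiLin_mul {t : (B →ₗ[k] Matrix (Fin g) (Fin g) k) × (Fin g → k)} (ht : t ∈ tangent p0)
    (a b : B) :
    psiLin p0 t (a * b) = (p0.ρ a).mulVec (psiLin p0 t b) + (t.1 a).mulVec (piLin p0 b) := by
  rw [psiLin_apply, psiLin_apply, piLin_apply, ht.1 a b, map_mul, Matrix.mulVec_add,
    Matrix.add_mulVec, Matrix.mulVec_mulVec, Matrix.mulVec_mulVec, Matrix.mulVec_mulVec]
  abel

theorem psiLin_v {t : (B →ₗ[k] Matrix (Fin g) (Fin g) k) × (Fin g → k)} (ht : t ∈ tangent p0)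
    (i : Fin g) : psiLin p0 t (v i) = 0 := ht.2 i

theorem psiLin_sLin {t : (B →ₗ[k] Matrix (Fin g) (Fin g) k) × (Fin g → k)} (ht : t ∈ tangent p0)
    (m : Fin g → k) : psiLin p0 t (sLin v m) = 0 := by
  rw [sLin_apply, map_sum]
  apply Finset.sum_eq_zero
  intro i _
  rw [map_smul, psiLin_v ht, smul_zero]

/-- a matrix is determined by its action on vectors. -/
theorem matrix_eq_of_mulVec {M N : Matrix (Fin g) (Fin g) k}
    (h : ∀ m : Fin g → k, M.mulVec m = N.mulVec m) : M = N := by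
  apply Matrix.toLin'.injective
  apply LinearMap.ext
  intro m
  rw [Matrix.toLin'_apply, Matrix.toLin'_apply]
  exact h m

/-- a tangent vector is determined by `ψ_t` on the ideal of the point. -/
theorem eq_zero_of_psiLin_eq_zero {t : (B →ₗ[k] Matrix (Fin g) (Fin g) k) × (Fin g → k)}
    (ht : t ∈ tangent p0) (h : ∀ b ∈ ptIdeal p0, psiLin p0 t b = 0) : t = 0 := by
  have hall : ∀ b : B, psiLin p0 t b = 0 := by
    intro b
    have h1 : b = (b - sLin v (piLin p0 b)) + sLin v (piLin p0 b) := by ring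
    rw [h1, map_add, h _ (sub_sLin_mem p0 b), psiLin_sLin ht, add_zero]
  have hδ : ∀ a : B, t.1 a = 0 := by
    intro a
    apply matrix_eq_of_mulVec
    intro m
    have h2 := psiLin_mul ht a (sLin v m)
    rw [hall, hall, Matrix.mulVec_zero, zero_add, piLin_sLin] at h2
    rw [← h2, Matrix.zero_mulVec]
  have hη : t.2 = 0 := by
    have h2 := hall 1
    rw [psiLin_apply, map_one, Matrix.one_mulVec, hδ 1, Matrix.zero_mulVec, add_zero] at h2
    exact h2
  apply Prod.ext
  · apply LinearMap.ext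
    intro a
    exact hδ a
  · exact hη

end Psi

section ToHom

variable (p0 : MatPt k v k)

/-- **the map from tangent vectors to `Hom_B(I, B ⧸ I)`**. -/
noncomputable def tangentToHom : tangent p0 →ₗ[k] (ptIdeal p0 →ₗ[B] B ⧸ ptIdeal p0) where
  toFun t :=
    { toFun := fun b => qinv p0 (psiLin p0 t.1 b.1)
      map_add' := fun b b' => by
        rw [Submodule.coe_add, map_add, map_add]
      map_smul' := fun a b => by
        rw [RingHom.id_apply, Submodule.coe_smul, smul_eq_mul, psiLin_mul t.2,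
          (mem_ptIdeal p0).1 b.2, Matrix.mulVec_zero, add_zero, smul_qinv] }
  map_add' t t' := by
    apply LinearMap.ext
    intro b
    show qinv p0 (psiLin p0 (t.1 + t'.1) b.1) =
      qinv p0 (psiLin p0 t.1 b.1) + qinv p0 (psiLin p0 t'.1 b.1)
    rw [psiLin_add, LinearMap.add_apply, map_add]
  map_smul' c t := by
    apply LinearMap.ext
    intro b
    show qinv p0 (psiLin p0 (c • t.1) b.1) = c • qinv p0 (psiLin p0 t.1 b.1)
    rw [psiLin_smul, LinearMap.smul_apply, map_smul]

theorem tangentToHom_apply (t : tangent p0) (b : ptIdeal p0) :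
    tangentToHom p0 t b = qinv p0 (psiLin p0 t.1 b.1) := rfl

theorem tangentToHom_injective : Function.Injective (tangentToHom p0) := by
  have h1 := @LinearMap.ker_eq_bot k k (tangent p0) (ptIdeal p0 →ₗ[B] B ⧸ ptIdeal p0)
    _ _ _ _ _ _ _ (tangentToHom p0)
  refine h1.1 (LinearMap.ker_eq_bot'.2 ?_)
  intro t ht
  apply Subtype.ext
  apply eq_zero_of_psiLin_eq_zero t.2
  intro b hb
  have h := LinearMap.congr_fun ht ⟨b, hb⟩
  rw [tangentToHom_apply, LinearMap.zero_apply] at h
  exact qinv_injective p0 (by rw [h, map_zero])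

end ToHom

section OfHom

variable (p0 : MatPt k v k) (φ : ptIdeal p0 →ₗ[B] B ⧸ ptIdeal p0)

/-- the projection of `B` onto the ideal of the point along `span v`. -/
noncomputable def prI (b : B) : ptIdeal p0 := ⟨b - sLin v (piLin p0 b), sub_sLin_mem p0 b⟩

theorem prI_add (a b : B) : prI p0 (a + b) = prI p0 a + prI p0 b := by
  apply Subtype.ext
  show a + b - sLin v (piLin p0 (a + b)) =
    (a - sLin v (piLin p0 a)) + (b - sLin v (piLin p0 b))
  rw [map_add, map_add]
  abel

theorem prI_smul (c : k) (b : B) : prI p0 (c • b) = c • prI p0 b := by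
  apply Subtype.ext
  show c • b - sLin v (piLin p0 (c • b)) = c • (b - sLin v (piLin p0 b))
  rw [map_smul, map_smul, smul_sub]

theorem prI_of_mem {b : B} (hb : b ∈ ptIdeal p0) : prI p0 b = ⟨b, hb⟩ := by
  apply Subtype.ext
  show b - sLin v (piLin p0 b) = b
  rw [(mem_ptIdeal p0).1 hb, map_zero, sub_zero]

theorem prI_sLin (m : Fin g → k) : prI p0 (sLin v m) = 0 := by
  apply Subtype.ext
  show sLin v m - sLin v (piLin p0 (sLin v m)) = 0
  rw [piLin_sLin, sub_self]

/-- the `k`-linear map `ψ : B → k^g` attached to `φ ∈ Hom_B(I, B ⧸ I)`. -/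
noncomputable def psiOf : B →ₗ[k] (Fin g → k) where
  toFun b := (qEquiv p0).symm (φ (prI p0 b))
  map_add' a b := by rw [prI_add, map_add, map_add]
  map_smul' c b := by
    rw [prI_smul, LinearMap.map_smul_of_tower, map_smul, RingHom.id_apply]

theorem psiOf_apply (b : B) : psiOf p0 φ b = (qEquiv p0).symm (φ (prI p0 b)) := rfl

theorem psiOf_of_mem {b : B} (hb : b ∈ ptIdeal p0) :
    psiOf p0 φ b = (qEquiv p0).symm (φ ⟨b, hb⟩) := by
  rw [psiOf_apply, prI_of_mem p0 hb]

theorem psiOf_sLin (m : Fin g → k) : psiOf p0 φ (sLin v m) = 0 := by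
  rw [psiOf_apply, prI_sLin, map_zero, map_zero]

theorem psiOf_mul_mem (a : B) {c : B} (hc : c ∈ ptIdeal p0) :
    psiOf p0 φ (a * c) = (p0.ρ a).mulVec (psiOf p0 φ c) := by
  have hac : a * c ∈ ptIdeal p0 := (ptIdeal p0).mul_mem_left a hc
  rw [psiOf_of_mem p0 φ hac, psiOf_of_mem p0 φ hc]
  have h : (⟨a * c, hac⟩ : ptIdeal p0) = a • (⟨c, hc⟩ : ptIdeal p0) := Subtype.ext rfl
  rw [h, map_smul, qEquiv_symm_smul]

/-- the key identity. -/
theorem psiOf_mul (a b : B) :
    psiOf p0 φ (a * b) =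
      (p0.ρ a).mulVec (psiOf p0 φ b) + psiOf p0 φ (a * sLin v (piLin p0 b)) := by
  have hc := sub_sLin_mem p0 b
  have h1 : a * b = a * (b - sLin v (piLin p0 b)) + a * sLin v (piLin p0 b) := by ring
  have h2 : psiOf p0 φ b = psiOf p0 φ (b - sLin v (piLin p0 b)) := by
    conv_lhs => rw [show b = (b - sLin v (piLin p0 b)) + sLin v (piLin p0 b) by ring]
    rw [map_add, psiOf_sLin, add_zero]
  rw [h1, map_add, psiOf_mul_mem p0 φ a hc, ← h2]

/-- the derivation part `δ` attached to `φ`. -/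
noncomputable def deltaOf : B →ₗ[k] Matrix (Fin g) (Fin g) k where
  toFun a := LinearMap.toMatrix' (psiOf p0 φ ∘ₗ LinearMap.mulLeft k a ∘ₗ sLin v)
  map_add' a b := by
    rw [← map_add]
    congr 1
    apply LinearMap.ext
    intro m
    simp only [LinearMap.comp_apply, LinearMap.mulLeft_apply, LinearMap.add_apply, add_mul,
      map_add]
  map_smul' c a := by
    rw [RingHom.id_apply, ← map_smul]
    congr 1
    apply LinearMap.ext
    intro m
    simp only [LinearMap.comp_apply, LinearMap.mulLeft_apply, LinearMap.smul_apply,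
      smul_mul_assoc, map_smul]

theorem deltaOf_mulVec (a : B) (m : Fin g → k) :
    (deltaOf p0 φ a).mulVec m = psiOf p0 φ (a * sLin v m) := by
  rw [← Matrix.toLin'_apply]
  show Matrix.toLin' (LinearMap.toMatrix' (psiOf p0 φ ∘ₗ LinearMap.mulLeft k a ∘ₗ sLin v)) m = _
  rw [Matrix.toLin'_toMatrix']
  rfl

/-- the tangent vector attached to `φ`. -/
theorem ofHom_mem : (deltaOf p0 φ, psiOf p0 φ 1) ∈ tangent p0 := by
  refine ⟨fun a b => ?_, fun i => ?_⟩
  · apply matrix_eq_of_mulVec
    intro m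
    show (deltaOf p0 φ (a * b)).mulVec m =
      (p0.ρ a * deltaOf p0 φ b + deltaOf p0 φ a * p0.ρ b).mulVec m
    rw [Matrix.add_mulVec, ← Matrix.mulVec_mulVec, ← Matrix.mulVec_mulVec, deltaOf_mulVec,
      deltaOf_mulVec, deltaOf_mulVec, mul_assoc, psiOf_mul p0 φ a (b * sLin v m), piLin_mul,
      piLin_sLin]
  · show (p0.ρ (v i)).mulVec (psiOf p0 φ 1) + (deltaOf p0 φ (v i)).mulVec p0.e = 0
    have h := psiOf_mul p0 φ (v i) 1
    rw [mul_one, piLin_one] at h
    rw [deltaOf_mulVec, ← h, ← sLin_single (k := k) (v := v) i, psiOf_sLin]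

theorem psiLin_ofHom : psiLin p0 (deltaOf p0 φ, psiOf p0 φ 1) = psiOf p0 φ := by
  apply LinearMap.ext
  intro b
  rw [psiLin_apply]
  show (p0.ρ b).mulVec (psiOf p0 φ 1) + (deltaOf p0 φ b).mulVec p0.e = _
  have h := psiOf_mul p0 φ b 1
  rw [mul_one, piLin_one] at h
  rw [deltaOf_mulVec, ← h]

theorem tangentToHom_surjective : Function.Surjective (tangentToHom p0) := by
  intro φ
  refine ⟨⟨(deltaOf p0 φ, psiOf p0 φ 1), ofHom_mem p0 φ⟩, ?_⟩
  apply LinearMap.ext
  intro b
  rw [tangentToHom_apply]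
  show qinv p0 (psiLin p0 (deltaOf p0 φ, psiOf p0 φ 1) b.1) = φ b
  rw [psiLin_ofHom, psiOf_of_mem p0 φ b.2, ← qEquiv_apply, LinearEquiv.apply_symm_apply]

/-- **`T_{p0} = Hom_B(I, B ⧸ I)`.** -/
noncomputable def tangentEquivHom : tangent p0 ≃ₗ[k] (ptIdeal p0 →ₗ[B] B ⧸ ptIdeal p0) :=
  LinearEquiv.ofBijective (tangentToHom p0)
    ⟨tangentToHom_injective p0, tangentToHom_surjective p0⟩

end OfHom

/-- **The tangent space of the functor of matrix points of a Dedekind domain at a `k`-point has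
dimension `g`.** -/
theorem finrank_tangent [IsDedekindDomain B] (p0 : MatPt k v k) (hI : ptIdeal p0 ≠ ⊥) :
    Module.finrank k (tangent p0) = g := by
  rw [(tangentEquivHom p0).finrank_eq, finrank_linearMap_ideal_quot (ptIdeal p0) hI,
    finrank_quot_ptIdeal]

end Fermat.Agent.AV.DimJ76
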