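/-
Fermat/Agent/AV/DimJ76/DerHV.lean  (helper76)

Programme AV, brick DIMJ: the Zariski tangent space of the representing algebra `HV k x v` of the
functor of matrix points at a `k`-point `z` is the tangent space `tangent p0` of the functor at
the corresponding matrix point `p0`.  For a Dedekind domain `B` it has dimension `g`.
-/
import Mathlib
import Fermat.Agent.AV.DimJ76.TangentHom
import Fermat.Agent.AV.DimJ76.PtDer

set_option autoImplicit false
set_option linter.unusedSectionVars false

universe u

namespace Fermat.Agent.AV.DimJ76

open TrivSqZeroExt Fermat.Agent.Jac.HilbChart87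

variable {k : Type u} [Field k] {B : Type u} [CommRing B] [Algebra k B] {n g : ℕ}
  {x : Fin n → B} {v : Fin g → B} (hx : Algebra.adjoin k (Set.range x) = ⊤)

/-- the pair `(b ↦ D(ρ_univ b), D ∘ e_univ)` attached to a `k`-linear form `D` on `HV`. -/
noncomputable def derPair :
    (HV k x v →ₗ[k] k) →ₗ[k] (B →ₗ[k] Matrix (Fin g) (Fin g) k) × (Fin g → k) where
  toFun D := (LinearMap.mapMatrix D ∘ₗ (univPt v hx).ρ.toLinearMap, fun i => D ((univPt v hx).e i))
  map_add' D D' := by
    apply Prod.ext
    · apply LinearMap.ext
      intro b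
      ext i j
      rfl
    · rfl
  map_smul' c D := by
    apply Prod.ext
    · apply LinearMap.ext
      intro b
      ext i j
      rfl
    · rfl

theorem derPair_fst_apply (D : HV k x v →ₗ[k] k) (b : B) :
    (derPair hx D).1 b = ((univPt v hx).ρ b).map D := rfl

theorem derPair_snd_apply (D : HV k x v →ₗ[k] k) (i : Fin g) :
    (derPair hx D).2 i = D ((univPt v hx).e i) := rfl

variable (z : HV k x v →ₐ[k] k)

/-- the matrix point over the dual numbers of a lift of `z`. -/
theorem map_fstHom_homEquivMatPt (f : HV k x v →ₐ[k] TrivSqZeroExt k k)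
    (hf : (fstHom k k k).comp f = z) :
    (homEquivMatPt v hx f).map (fstHom k k k) = homEquivMatPt v hx z := by
  rw [← homEquivMatPt_comp, hf]

/-- the lift of the matrix point `p0` given by a point derivation. -/
noncomputable def derLift (D : ptDer z) : Lifts (homEquivMatPt v hx z) :=
  ⟨homEquivMatPt v hx (ptDerLift D),
    map_fstHom_homEquivMatPt hx z (ptDerLift D) (fstHom_comp_ptDerLift D)⟩

theorem derPair_eq_liftToTangent (D : ptDer z) :
    derPair hx D.1 = (liftToTangent (derLift hx z D)).1 := by
  apply Prod.ext
  · apply LinearMap.ext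
    intro b
    show ((univPt v hx).ρ b).map D.1 = sndM ((homEquivMatPt v hx (ptDerLift D)).ρ b)
    rw [← univPt_map, MatPt.map_ρ_apply]
    ext i j
    show D.1 _ = ((ptDerLift D) _).snd
    rw [snd_ptDerLift]
  · funext i
    show D.1 ((univPt v hx).e i) = ((homEquivMatPt v hx (ptDerLift D)).e i).snd
    rw [← univPt_map, MatPt.map_e, Function.comp_apply, snd_ptDerLift]

theorem derPair_mem (D : ptDer z) : derPair hx D.1 ∈ tangent (homEquivMatPt v hx z) := by
  rw [derPair_eq_liftToTangent]
  exact (liftToTangent (derLift hx z D)).2

/-- **the comparison map** from point derivations of `HV` at `z` to the tangent space of the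
functor of matrix points. -/
noncomputable def derToTangent : ptDer z →ₗ[k] tangent (homEquivMatPt v hx z) :=
  LinearMap.codRestrict (tangent (homEquivMatPt v hx z))
    ((derPair hx) ∘ₗ (ptDer z).subtype) (fun D => derPair_mem hx z D)

theorem derToTangent_eq (D : ptDer z) :
    derToTangent hx z D = liftToTangent (derLift hx z D) :=
  Subtype.ext (derPair_eq_liftToTangent hx z D)

theorem derToTangent_injective : Function.Injective (derToTangent hx z) := by
  intro D D' h
  rw [derToTangent_eq, derToTangent_eq] at h
  have h1 : derLift hx z D = derLift hx z D' :=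
    (liftsEquivTangent (homEquivMatPt v hx z)).injective h
  have h2 : homEquivMatPt v hx (ptDerLift D) = homEquivMatPt v hx (ptDerLift D') :=
    congrArg Subtype.val h1
  have h3 : ptDerLift D = ptDerLift D' := (homEquivMatPt v hx).injective h2
  apply Subtype.ext
  apply LinearMap.ext
  intro r
  rw [← snd_ptDerLift D r, ← snd_ptDerLift D' r, h3]

theorem derToTangent_surjective : Function.Surjective (derToTangent hx z) := by
  intro t
  let P : Lifts (homEquivMatPt v hx z) := (liftsEquivTangent (homEquivMatPt v hx z)).symm t
  let f : HV k x v →ₐ[k] TrivSqZeroExt k k := (homEquivMatPt v hx).symm P.1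
  have hfP : homEquivMatPt v hx f = P.1 := (homEquivMatPt v hx).apply_symm_apply P.1
  have hf : (fstHom k k k).comp f = z := by
    apply (homEquivMatPt v hx).injective
    rw [homEquivMatPt_comp, hfP]
    exact P.2
  refine ⟨ptDerOfLift f hf, ?_⟩
  rw [derToTangent_eq]
  have h1 : derLift hx z (ptDerOfLift f hf) = P := by
    apply Subtype.ext
    show homEquivMatPt v hx (ptDerLift (ptDerOfLift f hf)) = P.1
    rw [ptDerLift_ptDerOfLift, hfP]
  rw [h1]
  exact (liftsEquivTangent (homEquivMatPt v hx z)).apply_symm_apply t

/-- **`T_z Spec(HV) = T_{p0}`.** -/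
noncomputable def derEquivTangent : ptDer z ≃ₗ[k] tangent (homEquivMatPt v hx z) :=
  LinearEquiv.ofBijective (derToTangent hx z)
    ⟨derToTangent_injective hx z, derToTangent_surjective hx z⟩

include hx in
/-- **The Zariski tangent space of `Spec (HV k x v)` at any `k`-point has dimension `g`**, for a
Dedekind domain `B` which is not finite over `k`. -/
theorem finrank_ptDer_HV [IsDedekindDomain B] (hB : ¬ Module.Finite k B) :
    Module.finrank k (ptDer z) = g := by
  rw [(derEquivTangent hx z).finrank_eq]
  exact finrank_tangent _ (ptIdeal_ne_bot _ hB)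

end Fermat.Agent.AV.DimJ76
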