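/-
Fermat/Agent/AV/DimJ76/RankOmega.lean  (helper76)

Programme AV, brick DIMJ: a nontrivial standard smooth localisation `T` of `HV k x v` over an
algebraically closed field `k` (with `B` a Dedekind domain, not finite over `k`) is standard
smooth of relative dimension `g`.
-/
import Mathlib
import Fermat.Agent.AV.DimJ76.DerHV

set_option autoImplicit false
set_option linter.unusedSectionVars false

universe u

namespace Fermat.Agent.AV.DimJ76

open Fermat.Agent.Jac.HilbChart87

/-- a nontrivial algebra of finite type over an algebraically closed field has a `k`-point. -/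
theorem exists_algHom_of_finiteType {k : Type*} [Field k] [IsAlgClosed k] (A : Type*) [CommRing A]
    [Algebra k A] [Algebra.FiniteType k A] [Nontrivial A] : Nonempty (A →ₐ[k] k) := by
  obtain ⟨m, hm⟩ := Ideal.exists_maximal A
  let _ : Field (A ⧸ m) := Ideal.Quotient.field m
  have : Algebra.FiniteType k (A ⧸ m) :=
    Algebra.FiniteType.of_surjective (Ideal.Quotient.mkₐ k m) (Ideal.Quotient.mkₐ_surjective k m)
  have : Module.Finite k (A ⧸ m) := finite_of_finite_type_of_isJacobsonRing k (A ⧸ m)
  have : Algebra.IsIntegral k (A ⧸ m) := Algebra.IsIntegral.of_finite k (A ⧸ m)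
  have hbij : Function.Bijective (algebraMap k (A ⧸ m)) :=
    IsAlgClosed.algebraMap_bijective_of_isIntegral
  let e : k ≃ₐ[k] (A ⧸ m) := AlgEquiv.ofBijective (Algebra.ofId k (A ⧸ m)) hbij
  exact ⟨(e.symm : (A ⧸ m) →ₐ[k] k).comp (Ideal.Quotient.mkₐ k m)⟩

variable {k : Type u} [Field k] {B : Type u} [CommRing B] [Algebra k B] {n g : ℕ}
  {x : Fin n → B} {v : Fin g → B}

/-- **The relative dimension of the Hilbert chart.** -/
theorem isStandardSmoothOfRelativeDimension_of_localization [IsAlgClosed k] [IsDedekindDomain B]
    (hB : ¬ Module.Finite k B) (hx : Algebra.adjoin k (Set.range x) = ⊤)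
    {T : Type u} [CommRing T] [Algebra k T] [Algebra (HV k x v) T] [IsScalarTower k (HV k x v) T]
    (M : Submonoid (HV k x v)) [IsLocalization M T] [Algebra.IsStandardSmooth k T]
    [Nontrivial T] : Algebra.IsStandardSmoothOfRelativeDimension g k T := by
  rw [Algebra.IsStandardSmoothOfRelativeDimension.iff_of_isStandardSmooth]
  have : Algebra.FiniteType k T := inferInstance
  obtain ⟨z'⟩ := exists_algHom_of_finiteType (k := k) T
  have h1 : Module.finrank k (ptDer z') = Module.finrank T Ω[T⁄k] :=
    finrank_ptDer_eq_finrank_kaehler z'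
  have h2 : Module.finrank k (ptDer z') = g := by
    rw [finrank_ptDer_localization M z']
    exact finrank_ptDer_HV hx _ hB
  rw [← Module.finrank_eq_rank, ← h1, h2]

end Fermat.Agent.AV.DimJ76
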