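/-
Fermat/Agent/AV/DimJ76/SchemeYoga.lean  (helper76)

Programme AV, brick DIMJ: from rings to schemes.  If `H` is a `k`-algebra all of whose nontrivial
standard smooth localisations have relative dimension `n` (`RelDimProp k n H`), then every smooth
open subscheme of `Spec H` is smooth of relative dimension `n` over `Spec k`; and a `k`-scheme
covered by such charts is smooth of relative dimension `n`.
-/
import Mathlib

set_option autoImplicit false
set_option linter.unusedSectionVars false

universe u

open CategoryTheory AlgebraicGeometry

namespace Fermat.Agent.AV.DimJ76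

/-- all nontrivial standard smooth localisations of `H` have relative dimension `n`. -/
def RelDimProp (k : Type u) [Field k] (n : ℕ) (H : Type u) [CommRing H] [Algebra k H] : Prop :=
  ∀ (T : Type u) [CommRing T] [Algebra k T] [Algebra H T] [IsScalarTower k H T]
    (M : Submonoid H) [IsLocalization M T] [Algebra.IsStandardSmooth k T] [Nontrivial T],
    Algebra.IsStandardSmoothOfRelativeDimension n k T

section ZeroRing

open Algebra

set_option backward.isDefEq.respectTransparency false in
/-- a submersive presentation of the zero ring with `n + 1` generators and one relation. -/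
noncomputable def zeroRingPresentation (R S : Type*) [CommRing R] [CommRing S] [Algebra R S]
    [Subsingleton S] (n : ℕ) : SubmersivePresentation R S (Fin n ⊕ Unit) Unit where
  val _ := 1
  σ' _ := 1
  aeval_val_σ' _ := Subsingleton.elim _ _
  relation _ := 1
  span_range_relation_eq_ker := by
    simp only [Generators.ker, Extension.ker, RingHom.ker_eq_top_of_subsingleton]
    rw [Set.range_const, Ideal.span_singleton_one]
  map _ := Sum.inr ⟨⟩
  map_inj _ _ _ := rfl
  jacobian_isUnit := isUnit_of_subsingleton _

/-- **the zero ring is standard smooth of every relative dimension.** -/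
theorem isStandardSmoothOfRelativeDimension_of_subsingleton (R S : Type*) [CommRing R]
    [CommRing S] [Algebra R S] [Subsingleton S] (n : ℕ) :
    Algebra.IsStandardSmoothOfRelativeDimension n R S :=
  (zeroRingPresentation R S n).isStandardSmoothOfRelativeDimension (by
    simp [Presentation.dimension])

end ZeroRing

section Algebra

variable {k : Type u} [Field k] {H : Type u} [CommRing H] [Algebra k H] {n : ℕ}

/-- **Lemma A**: a smooth localisation of `H` is locally standard smooth of relative dimension
`n`. -/
theorem locally_relDim_of_smooth (hrel : RelDimProp k n H)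
    (T : Type u) [CommRing T] [Algebra k T] [Algebra H T] [IsScalarTower k H T]
    (M : Submonoid H) [IsLocalization M T] (hsm : (algebraMap k T).Smooth) :
    RingHom.Locally (RingHom.IsStandardSmoothOfRelativeDimension n) (algebraMap k T) := by
  obtain ⟨s, hs, h⟩ := RingHom.smooth_iff_locally_isStandardSmooth.1 hsm
  refine ⟨s, hs, fun t ht => ?_⟩
  have h1 := h t ht
  have hcomp : (algebraMap T (Localization.Away t)).comp (algebraMap k T) =
      algebraMap k (Localization.Away t) := (IsScalarTower.algebraMap_eq k T _).symm
  rw [hcomp] at h1 ⊢
  rw [RingHom.isStandardSmooth_algebraMap] at h1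
  refine (RingHom.isStandardSmoothOfRelativeDimension_algebraMap n).2 ?_
  rcases subsingleton_or_nontrivial (Localization.Away t) with hsub | hnt
  · exact isStandardSmoothOfRelativeDimension_of_subsingleton k _ n
  · have : IsLocalization
        (IsLocalization.localizationLocalizationSubmodule M (Submonoid.powers t))
        (Localization.Away t) :=
      IsLocalization.localization_localization_isLocalization M (Submonoid.powers t) _
    exact hrel (Localization.Away t)
      (IsLocalization.localizationLocalizationSubmodule M (Submonoid.powers t))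

end Algebra

section Scheme

variable {k : Type u} [Field k] {H : Type u} [CommRing H] [Algebra k H] {n : ℕ}

/-- the affine case. -/
theorem smoothOfRelDim_Spec (hrel : RelDimProp k n H)
    (T : Type u) [CommRing T] [Algebra k T] [Algebra H T] [IsScalarTower k H T]
    (M : Submonoid H) [IsLocalization M T]
    (hsm : Smooth (Spec.map (CommRingCat.ofHom (algebraMap k T)))) :
    SmoothOfRelativeDimension n (Spec.map (CommRingCat.ofHom (algebraMap k T))) := by
  rw [HasRingHomProperty.Spec_iff (P := @SmoothOfRelativeDimension n)]
  rw [HasRingHomProperty.Spec_iff (P := @Smooth)] at hsm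
  exact locally_relDim_of_smooth hrel T M hsm

set_option backward.isDefEq.respectTransparency.types false in
/-- a morphism is smooth of relative dimension `n` if its source is covered by open subschemes on
which it is. -/
theorem smoothOfRelDim_of_charts {J S : Scheme.{u}} (f : J ⟶ S) {ι : Type u}
    (X : ι → Scheme.{u}) (j : ∀ i, X i ⟶ J) (hj : ∀ i, IsOpenImmersion (j i))
    (hcov : ∀ p : J, ∃ i, p ∈ Set.range (j i))
    (h : ∀ i, SmoothOfRelativeDimension n (j i ≫ f)) : SmoothOfRelativeDimension n f := by
  let 𝒰 : J.OpenCover := Scheme.Cover.mkOfCovers ι X j (fun p => by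
    obtain ⟨i, y, hy⟩ := hcov p
    exact ⟨i, y, hy⟩) hj
  exact IsZariskiLocalAtSource.of_openCover 𝒰 h

/-- **smooth opens of `Spec H`**. -/
theorem smoothOfRelDim_opens (hrel : RelDimProp k n H) (U : (Spec (CommRingCat.of H)).Opens)
    (hsm : Smooth (U.ι ≫ Spec.map (CommRingCat.ofHom (algebraMap k H)))) :
    SmoothOfRelativeDimension n (U.ι ≫ Spec.map (CommRingCat.ofHom (algebraMap k H))) := by
  -- the basic opens inside `U`
  let I : Type u := {h : H // (Spec.map (CommRingCat.ofHom
    (algebraMap H (Localization.Away h)))).opensRange ≤ U}
  let g : ∀ i : I, Spec (CommRingCat.of (Localization.Away i.1)) ⟶ Spec (CommRingCat.of H) :=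
    fun i => Spec.map (CommRingCat.ofHom (algebraMap H (Localization.Away i.1)))
  have hg : ∀ i : I, Set.range (g i) ⊆ Set.range U.ι := by
    intro i
    rw [Scheme.Opens.range_ι]
    exact i.2
  let j : ∀ i : I, Spec (CommRingCat.of (Localization.Away i.1)) ⟶ U.toScheme :=
    fun i => IsOpenImmersion.lift U.ι (g i) (hg i)
  have hjg : ∀ i, j i ≫ U.ι = g i := fun i => IsOpenImmersion.lift_fac _ _ _
  have hj : ∀ i, IsOpenImmersion (j i) := by
    intro i
    have : IsOpenImmersion (j i ≫ U.ι) := by rw [hjg]; infer_instance
    exact IsOpenImmersion.of_comp (j i) U.ι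
  refine smoothOfRelDim_of_charts _ _ j hj ?_ ?_
  · intro p
    have hp : (U.ι p) ∈ U := by
      have := Set.mem_range_self (f := U.ι) p
      rwa [Scheme.Opens.range_ι] at this
    obtain ⟨_, ⟨_, ⟨h, rfl⟩, rfl⟩, hph, hhU⟩ :=
      PrimeSpectrum.isBasis_basic_opens.exists_subset_of_mem_open hp U.2
    have hrange : (Spec.map (CommRingCat.ofHom
        (algebraMap H (Localization.Away h)))).opensRange = PrimeSpectrum.basicOpen h :=
      Scheme.Hom.opensRange_localizationAway (R := CommRingCat.of H) h
    have hle : (Spec.map (CommRingCat.ofHom
        (algebraMap H (Localization.Away h)))).opensRange ≤ U := by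
      rw [hrange]
      exact hhU
    have hmem : U.ι p ∈ (Spec.map (CommRingCat.ofHom
        (algebraMap H (Localization.Away h)))).opensRange := by
      rw [hrange]
      exact hph
    obtain ⟨q, hq⟩ := hmem
    refine ⟨⟨h, hle⟩, q, ?_⟩
    apply U.ι.injective
    rw [← Scheme.Hom.comp_apply, hjg]
    exact hq
  · intro i
    have heq : j i ≫ U.ι ≫ Spec.map (CommRingCat.ofHom (algebraMap k H)) =
        Spec.map (CommRingCat.ofHom (algebraMap k (Localization.Away i.1))) := by
      rw [← Category.assoc, hjg, ← Spec.map_comp, ← CommRingCat.ofHom_comp,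
        ← IsScalarTower.algebraMap_eq]
    rw [heq]
    refine smoothOfRelDim_Spec hrel (Localization.Away i.1) (Submonoid.powers i.1) ?_
    rw [← heq]
    infer_instance

end Scheme

end Fermat.Agent.AV.DimJ76
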