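/-
Fermat/Agent/AV/DimJ76/Assembly.lean  (helper76)

Programme AV, brick DIMJ: ASSEMBLY.  The S25 construction of the Jacobian, re-run with the extra
output that the Jacobian is smooth of relative dimension `g = Genus41.genus cc`:
`dimJ : DimJStatement`.
-/
import Mathlib
import Fermat.Agent.AV.DimJ76.Interface
import Fermat.Agent.AV.DimJ76.RankOmega
import Fermat.Agent.AV.DimJ76.SchemeYoga
import Fermat.Agent.Jac.FinalWiring41e

set_option autoImplicit false
set_option linter.unusedSectionVars false
set_option linter.style.haveILetI false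

noncomputable section

universe u

open CategoryTheory CategoryTheory.Limits AlgebraicGeometry AlgebraicGeometry.RelPicard
  NeronModelInfra GoodReductionJacobian TensorProduct

namespace Fermat.Agent.AV.DimJ76

open Fermat.Agent.Jac Fermat.Agent.Jac.AlgChart76
open scoped Fermat.Agent.Jac.BaseChange75
open JSmooth85Alg BaseChange75 LineOps39

section Abstract

variable {k : Type u} [Field k] [IsAlgClosed k] {B0 B1 B01 : Type u}
  [CommRing B0] [CommRing B1] [CommRing B01]
  [Algebra k B0] [Algebra k B1] [Algebra k B01] [Algebra B0 B01] [Algebra B1 B01]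
  [IsScalarTower k B0 B01] [IsScalarTower k B1 B01]
  [Algebra.FiniteType k B0] [IsDedekindDomain B0] [IsDedekindDomain B1]
  {c0 : TwoChart k B0 B1 B01} {ιInf : Type} [Finite ιInf] {e : ιInf → (B1 →ₐ[k] k)}

/-- a Dedekind domain which is not a field is not finite over `k`. -/
theorem not_finite_of_not_isField (hB0f : ¬ IsField B0) : ¬ Module.Finite k B0 := by
  intro hfin
  apply hB0f
  have : IsArtinianRing B0 := IsArtinianRing.of_finite k B0
  exact IsArtinianRing.isField_of_isDomain B0

/-- **R2a with relative dimension**: the package of Hilbert charts, with coordinate rings of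
finite type all of whose smooth localisations have relative dimension `g`. -/
theorem exists_package_relDim (H : ChartHyp c0 e) (i₀ : ιInf) {P0 : B1 →ₐ[k] k} (hP0 : e i₀ = P0)
    (ht : Transcendental k c0.t) (hB0f : ¬ IsField B0) (hB1f : ¬ IsField B1)
    {g : ℕ} (hg : ChiBC36.chiUnit k B0 B1 B01 + g = 1)
    (hinv0 : ∀ q : B0 →ₐ[k] k, Module.Invertible B0 (RingHom.ker q)) :
    ∃ pkgA : AlgChartPackage (stdFam (B0 := B0) (B01 := B01) P0 (ChiBC36.chiUnit k B0 B1 B01)),
      (∀ i, Algebra.FiniteType k (pkgA.chart i).H) ∧ ∀ i, RelDimProp k g (pkgA.chart i).H := by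
  subst hP0
  obtain ⟨n, x, hx⟩ := HilbChart87.exists_generators k B0
  have hcov := covHyp_of_chartHyp H i₀ hB0f hB1f hg
  refine ⟨hilbPackage H i₀ ht hg hx hinv0 hcov, hilbPackage_finiteType H i₀ ht hg hx hinv0 hcov,
    fun i => ?_⟩
  show RelDimProp k g (HilbChart87.HV k x i.2)
  intro T _ _ _ _ M _ _ _
  exact isStandardSmoothOfRelativeDimension_of_localization (not_finite_of_not_isField hB0f) hx M

end Abstract

section CC

variable {k : Type u} [Field k] [IsAlgClosed k] {C : Scheme.{u}}
  {c : C ⟶ Spec (CommRingCat.of k)}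
  {ε : SchemeHomOver (𝟙 (Spec (CommRingCat.of k))) c}

/-- **R2a with relative dimension**, for a curve with charts. -/
theorem exists_pkgA_relDim (cc : CurveCharts c ε) :
    ∃ pkgA : AlgChartPackage (FamDict14.fam cc),
      (∀ i, Algebra.FiniteType k (pkgA.chart i).H) ∧
        ∀ i, RelDimProp k (Genus41.genus cc) (pkgA.chart i).H := by
  haveI := CurveHyp80.isDedekindDomain_B0 cc
  haveI := CurveHyp80.isDedekindDomain_B1 cc
  haveI := CurveHyp80.finiteType_B0 cc
  obtain ⟨ιInf, hfin, e, i₀, hP0, hInf, hinv⟩ := InfData98.exists_infData_invertible cc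
  have H : ChartHyp cc.chart0 e :=
    { hc0 := CurveHyp80.finiteProjOverLine_chart0 cc
      hInf := hInf
      hinv := hinv
      hB0 := fun K _ _ => GeomIntegral40.isDomain_tensorProduct k K cc.B0
      hB1 := fun K _ _ => GeomIntegral40.isDomain_tensorProduct k K cc.B1 }
  exact exists_package_relDim H i₀ hP0 (CurveHyp98.transcendental_t cc)
    (CurveHyp80.not_isField_B0 cc) (CurveHyp80.not_isField_B1 cc) (Genus41.chiUnit_add_genus cc)
    (CurveHyp98.invertible_ker_B0 cc)

end CC

section Final

open Fermat.Agent.Jac.PointsBridge79 Fermat.Agent.Jac.PointsBridge79Shell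

variable {k : Type u} [Field k] {C : Scheme.{u}} {c : C ⟶ Spec (CommRingCat.of k)}
  {ε : SchemeHomOver (𝟙 (Spec (CommRingCat.of k))) c}

/-- **The final shell of S25 for the given designation** (`FinalShell79`, keeping `D`). -/
theorem representsRelSubPic_algEquivZeroCut_same [IsAlgClosed k] {P : SubPicCondition c ε}
    {D : RelativePic0Designation k c}
    (h : RepresentsRelSubPic c ε P D) [LocallyOfFiniteType D.toBase]
    (hP : ∀ {T : Scheme.{u}} (t : T ⟶ Spec (CommRingCat.of k)) (M : RigidifiedLineBundle c ε t),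
      FibrewiseAlgEquivZero M → P.P t M)
    (Γ : ClassGroupLaw P) (hl : ClassLifting P)
    {X : Scheme.{u}} (p : X ⟶ Spec (CommRingCat.of k)) [IsProper p] [GeometricallyIntegral p]
    (F : ClassFamily P p)
    (hF : ∀ ξ : PClass P (𝟙 (Spec (CommRingCat.of k))),
      ∃ z : SchemeHomOver (𝟙 (Spec (CommRingCat.of k))) p,
        F.cls (CommRingCat.of k) z.1 =
          PClass.map P (⟨𝟙 _, by rw [Category.id_comp, z.2]⟩ :
            SchemeHomOver (z.1 ≫ p) (𝟙 (Spec (CommRingCat.of k)))) ξ)
    (x0 : SchemeHomOver (𝟙 (Spec (CommRingCat.of k))) p)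
    (hx0 : F.cls (CommRingCat.of k) x0.1 =
      PClass.map P (⟨𝟙 _, by rw [Category.id_comp, x0.2]⟩ :
        SchemeHomOver (x0.1 ≫ p) (𝟙 (Spec (CommRingCat.of k))))
        (PClass.mk P (𝟙 _) (RigidifiedLineBundle.unit (𝟙 _)) (P.unit_mem _))) :
    Nonempty (RepresentsRelSubPic c ε (algEquivZeroCut c ε) D) ∧
      Smooth D.toBase ∧ IsProper D.toBase ∧ GeometricallyConnected D.toBase := by
  have hint : IsIntegral X := GeometricallyIntegral.isIntegral_of_subsingleton p
  have hconn : ConnectedSpace X := inferInstance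
  have hshell := PointsBridge79Shell.smooth_isProper_geometricallyConnected h Γ hl p F hF
  have hsep : IsSeparated D.toBase := isSeparated_of_classGroupLaw h Γ
  have ha : familyMap h F ≫ D.toBase = p := familyMap_toBase h F
  have hsurj : Surjective (familyMap h F) :=
    QShell79Proper.surjective_of_forall_rational_point D.toBase p (familyMap h F) ha
      (familyMap_hits h F hF)
  have hlft : LocallyOfFiniteType (familyMap h F ≫ D.toBase) := by rw [ha]; infer_instance
  have hgi : GeometricallyIntegral (familyMap h F ≫ D.toBase) := by rw [ha]; infer_instance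
  have hmem : FibrewiseAlgEquivZero h.poincare :=
    PoincareMem79.fibrewiseAlgEquivZero_poincare h (familyMap h F) x0.1
      (FinalShell79.comp_familyMap_eq_zeroSection h F x0 hx0)
  exact ⟨⟨FinalShell79.representsAlgEquivZeroCut h hP hmem⟩, hshell⟩

/-- **DIMJ from the bricks** (the S25 assembly `FinalWiring41.s25_of_bricks`, with the relative
dimension of the charts as extra input). -/
theorem dimJ_of_bricks [IsAlgClosed k] [IsProper c] [SmoothOfRelativeDimension 1 c] [IsIntegral C]
    (cc : CurveCharts c ε) (D : AffineDictionary cc) (hc0 : cc.chart0.FiniteProjOverLine)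
    (hS : ClassesIsSheaf c ε)
    {F : AlgChart76.FamTheory k}
    (dict : RepTransport.FamDictionary c ε (ChiDict36.chiCut D hc0) F)
    (pkgA : AlgChart76.AlgChartPackage F)
    (hft : ∀ i, Algebra.FiniteType k (pkgA.chart i).H)
    (Q : JGroup85Law.CutAlg cc D (ChiDict36.chiCut D hc0))
    (F1 : ClassFamily (ChiDict36.chiCut D hc0) c) (g : ℕ)
    (H : ∀ ξ : PClass (ChiDict36.chiCut D hc0) (𝟙 (Spec (CommRingCat.of k))),
      AbelJacobi73.IsProductOfPoints (JGroup85Law.classGroupLaw D (ChiDict36.chiCut D hc0) Q)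
        F1 g ξ)
    (n : ℕ) (hrel : ∀ i, RelDimProp k n (pkgA.chart i).H) :
    ∃ D' : RelativePic0Designation k c,
      Nonempty (RepresentsRelSubPic c ε (algEquivZeroCut c ε) D') ∧
        Smooth D'.toBase ∧ IsProper D'.toBase ∧ GeometricallyConnected D'.toBase ∧
        SmoothOfRelativeDimension n D'.toBase := by
  have hloc : IsLocalCondition (ChiDict36.chiCut D hc0) :=
    ChiDict36.isLocalCondition_chiCut D hc0
  let apkg := RepTransport.affineChartPackage hS dict pkgA
  let pkg := RepAffine81.chartPackageOfAffine hS (ChiDict36.chiCut D hc0) apkg hloc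
  have hlft : ∀ i, LocallyOfFiniteType (pkg.x i) :=
    RepTransport.locallyOfFiniteType_affineChartPackage_x hS dict pkgA hft
  let Γ := JGroup85Law.classGroupLaw D (ChiDict36.chiCut D hc0) Q
  have hl := JGroup85Law.classLifting D (ChiDict36.chiCut D hc0) Q
  have hF := AbelJacobi73.powerFamily_hits Γ F1 g H
  obtain ⟨x0, hx0⟩ := hF (PClass.mk _ (𝟙 _) (RigidifiedLineBundle.unit (𝟙 _))
    ((ChiDict36.chiCut D hc0).unit_mem _))
  have hsm : Smooth c := SmoothOfRelativeDimension.smooth 1 c
  have hgi : GeometricallyIntegral (QShell79Power.fibrePower c g).hom :=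
    QShell79Power.fibrePower_geometricallyIntegral c g
  -- Theorem R, keeping the charts
  obtain ⟨D', j, ⟨hrep⟩, hopen, hcov, hcomp⟩ :=
    RepTheorem.exists_represents hS (ChiDict36.chiCut D hc0) pkg
      (RepSheaf81.isSheaf_F hS (ChiDict36.chiCut D hc0) hloc)
  have hD' : LocallyOfFiniteType D'.toBase :=
    FinalAssembly86.locallyOfFiniteType_of_charts D'.toBase pkg.X j hopen hcov fun i => by
      rw [hcomp i]
      exact hlft i
  obtain ⟨h1, h2, h3, h4⟩ := representsRelSubPic_algEquivZeroCut_same hrep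
    (fun t M hM => ChiDict36.chiCut_of_fibrewiseAlgEquivZero D hc0 t M hM) Γ hl
    (QShell79Power.fibrePower c g).hom (AbelJacobi73.powerFamily Γ F1 g) hF x0 hx0
  refine ⟨D', h1, h2, h3, h4, ?_⟩
  -- the relative dimension, chart by chart
  refine smoothOfRelDim_of_charts D'.toBase pkg.X j hopen hcov fun i => ?_
  have hsmi : Smooth (j i ≫ D'.toBase) := by
    haveI := hopen i
    infer_instance
  rw [hcomp i] at hsmi ⊢
  exact smoothOfRelDim_opens (hrel i) (RepTransport.chartOpen pkgA i) hsmi

/-- **Brick DIMJ**: the Jacobian of S25 is smooth of relative dimension `g = h¹(C, O_C)`. -/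
theorem dimJ : DimJStatement.{u} := by
  intro k _ _ C c _ _ _ ε cc
  obtain ⟨F1, H⟩ := FinalWiring41.exists_F1_H41 cc (FinalWiring41.dict41 cc)
  obtain ⟨pkgA, hft, hrel⟩ := exists_pkgA_relDim cc
  exact dimJ_of_bricks cc (FinalWiring41.dict41 cc) (ChartFPL36.chart0_finiteProjOverLine cc)
    (ClassesGlue86.Main.classesIsSheaf (fun A _ _ => (FinalWiring41.dict41 cc).gamma_top A))
    (FamDict14.famDict (FinalWiring41.dict41 cc) (ChartFPL36.chart0_finiteProjOverLine cc))
    pkgA hft
    (CutAlg79.chiCutAlg (FinalWiring41.dict41 cc) (ChartFPL36.chart0_finiteProjOverLine cc)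
      (CutAlg36.hDom_of_isIntegral cc)) F1 _ H (Genus41.genus cc) hrel

end Final

end Fermat.Agent.AV.DimJ76
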