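/-
Programme AV (S26/S27), brick DIMJ (helper76), piece **RankOmega / (B3)**, helper96.  Mathlib only.

`RankOmega96`: **the relative dimension of a standard smooth algebra is the dimension of the
tangent space at a `k`-point**, and tangent spaces do not change under localisation.

* `derivationEquiv k T M : (Ω[T⁄k] →ₗ[T] M) ≃ₗ[k] Derivation k T M`;
* `finrank_derivation` : `dim_k Der_k(T, M) = rank_T Ω[T⁄k] * dim_k M` if `Ω[T⁄k]` is finite free;
* `rank_kaehlerDifferential_eq_finrank_derivation`, and
  `isStandardSmoothOfRelativeDimension_of_finrank_derivation` : for `T` nontrivial standard smooth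
  and `M` a `T`-module with `dim_k M = 1`, `T` has relative dimension `dim_k Der_k(T, M)`;
* `derivationEquivOfFormallyEtale k H T M : Derivation k T M ≃ₗ[k] Derivation k H M` for `T`
  formally etale over `H` (e.g. a localisation) and `M` a `T`-module, with
  `derivationEquivOfFormallyEtale_apply : (… d) h = d (algebraMap H T h)`;
* `isStandardSmoothOfRelativeDimension_of_finrank_derivation_of_formallyEtale` : the same criterion
  with the tangent space computed on `H`;
* `exists_algHom_of_finiteType` : a nontrivial finite type algebra over an algebraically closed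
  field has a `k`-point (Nullstellensatz);
* `PointMod z` : `k` as a `T`-module via a `k`-point `z : T →ₐ[k] k` (a type synonym carrying global
  instances `Module k`, `Module T`, `IsScalarTower k T`), `PointMod.of`, `PointMod.smul_def`,
  `PointMod.finrank_eq_one`; `restrictPoint`, `restrictEquiv`;
* `isStandardSmoothOfRelativeDimension_of_forall_point` : **(B3)** if every `k`-point `z₀` of `H`
  has `dim_k Der_k(H, k_{z₀}) = g`, then every nontrivial standard smooth `T` formally etale over
  `H` (e.g. `H[1/f]`) is standard smooth of relative dimension `g` (`k` algebraically closed).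
-/
import Mathlib

set_option autoImplicit false

namespace Fermat.Agent.AV.DimJ76.RankOmega96

open KaehlerDifferential TensorProduct

section General

variable (k T M : Type*) [Field k] [CommRing T] [Algebra k T] [AddCommGroup M]
  [Module k M] [Module T M] [IsScalarTower k T M]

/-- Derivations as linear maps on differentials, `k`-linearly. -/
noncomputable def derivationEquiv : (Ω[T⁄k] →ₗ[T] M) ≃ₗ[k] Derivation k T M :=
  (KaehlerDifferential.linearMapEquivDerivation k T (M := M)).restrictScalars k

@[simp]
theorem derivationEquiv_apply (l : Ω[T⁄k] →ₗ[T] M) (x : T) :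
    derivationEquiv k T M l x = l (D k T x) := rfl

@[simp]
theorem derivationEquiv_symm_apply_D (d : Derivation k T M) (x : T) :
    (derivationEquiv k T M).symm d (D k T x) = d x := by
  show d.liftKaehlerDifferential (D k T x) = d x
  exact Derivation.liftKaehlerDifferential_comp_D d x

/-- If `Ω[T⁄k]` is finite free over `T`, then
`dim_k Der_k(T, M) = rank_T Ω[T⁄k] * dim_k M`. -/
theorem finrank_derivation [Nontrivial T] [Module.Free T Ω[T⁄k]] [Module.Finite T Ω[T⁄k]] :
    Module.finrank k (Derivation k T M) = Module.finrank T Ω[T⁄k] * Module.finrank k M := by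
  rw [← (derivationEquiv k T M).finrank_eq]
  exact Module.finrank_linearMap T k Ω[T⁄k] M

/-- **RankOmega**: for a nontrivial standard smooth `k`-algebra `T` and a `T`-module `M` of
`k`-dimension one (e.g. `k` via a `k`-point), `rank_T Ω[T⁄k] = dim_k Der_k(T, M)`. -/
theorem rank_kaehlerDifferential_eq_finrank_derivation [Nontrivial T]
    [Algebra.IsStandardSmooth k T] (hM : Module.finrank k M = 1) :
    Module.rank T Ω[T⁄k] = (Module.finrank k (Derivation k T M) : Cardinal) := by
  rw [finrank_derivation k T M, hM, mul_one, Module.finrank_eq_rank]

/-- A nontrivial standard smooth `k`-algebra has relative dimension `dim_k Der_k(T, M)` for any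
`T`-module `M` of `k`-dimension one. -/
theorem isStandardSmoothOfRelativeDimension_of_finrank_derivation [Nontrivial T]
    [Algebra.IsStandardSmooth k T] (hM : Module.finrank k M = 1) (g : ℕ)
    (hg : Module.finrank k (Derivation k T M) = g) :
    Algebra.IsStandardSmoothOfRelativeDimension g k T := by
  rw [Algebra.IsStandardSmoothOfRelativeDimension.iff_of_isStandardSmooth,
    rank_kaehlerDifferential_eq_finrank_derivation k T M hM, hg]

end General

section Loc

variable (k H T M : Type*) [Field k] [CommRing H] [CommRing T] [Algebra k H] [Algebra k T]
  [Algebra H T] [IsScalarTower k H T] [Algebra.FormallyEtale H T]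
  [AddCommGroup M] [Module k M] [Module H M] [Module T M] [IsScalarTower k H M]
  [IsScalarTower k T M] [IsScalarTower H T M]

/-- Derivations of a formally etale extension `T` of `H` (e.g. a localisation) with values in a
`T`-module are the derivations of `H`. -/
noncomputable def derivationEquivOfFormallyEtale : Derivation k T M ≃ₗ[k] Derivation k H M :=
  (derivationEquiv k T M).symm ≪≫ₗ
    (LinearEquiv.congrLeft M k (tensorKaehlerEquivOfFormallyEtale k H T)).symm ≪≫ₗ
    ((LinearMap.liftBaseChangeEquiv (R := H) (M := Ω[H⁄k]) (N := M) T).symm.restrictScalars k) ≪≫ₗ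
    derivationEquiv k H M

theorem derivationEquivOfFormallyEtale_apply (d : Derivation k T M) (h : H) :
    derivationEquivOfFormallyEtale k H T M d h = d (algebraMap H T h) := by
  simp [derivationEquivOfFormallyEtale, LinearEquiv.congrLeft]

/-- The criterion with the tangent space computed on `H`. -/
theorem isStandardSmoothOfRelativeDimension_of_finrank_derivation_of_formallyEtale [Nontrivial T]
    [Algebra.IsStandardSmooth k T] (hM : Module.finrank k M = 1) (g : ℕ)
    (hg : Module.finrank k (Derivation k H M) = g) :
    Algebra.IsStandardSmoothOfRelativeDimension g k T :=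
  isStandardSmoothOfRelativeDimension_of_finrank_derivation k T M hM g
    ((derivationEquivOfFormallyEtale k H T M).finrank_eq.trans hg)

end Loc

section Points

variable {k T : Type*} [Field k] [CommRing T] [Algebra k T]

/-- Nullstellensatz: a nontrivial finite type algebra over an algebraically closed field has a
`k`-point. -/
theorem exists_algHom_of_finiteType [IsAlgClosed k] [Nontrivial T] [Algebra.FiniteType k T] :
    Nonempty (T →ₐ[k] k) := by
  obtain ⟨m, hm⟩ := Ideal.exists_maximal T
  let _ := Ideal.Quotient.field m
  have : Algebra.FiniteType k (T ⧸ m) :=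
    Algebra.FiniteType.of_surjective (Ideal.Quotient.mkₐ k m) (Ideal.Quotient.mkₐ_surjective k m)
  have : Module.Finite k (T ⧸ m) := finite_of_finite_type_of_isJacobsonRing k (T ⧸ m)
  have : Algebra.IsIntegral k (T ⧸ m) := Algebra.IsIntegral.of_finite k (T ⧸ m)
  have hbij : Function.Bijective (algebraMap k (T ⧸ m)) :=
    IsAlgClosed.algebraMap_bijective_of_isIntegral
  let e : k ≃ₐ[k] (T ⧸ m) := AlgEquiv.ofBijective (Algebra.ofId k (T ⧸ m)) hbij
  exact ⟨(e.symm : (T ⧸ m) →ₐ[k] k).comp (Ideal.Quotient.mkₐ k m)⟩

/-- `k` as a `T`-module via a `k`-point `z : T →ₐ[k] k` (a type synonym of `k`). -/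
def PointMod (_z : T →ₐ[k] k) : Type _ := k

namespace PointMod

variable (z : T →ₐ[k] k)

instance : AddCommGroup (PointMod z) := inferInstanceAs (AddCommGroup k)

instance : Module k (PointMod z) := inferInstanceAs (Module k k)

instance : Module T (PointMod z) := Module.compHom k (z : T →+* k)

/-- The identity map `k → PointMod z`. -/
def of : k ≃ₗ[k] PointMod z := LinearEquiv.refl k k

theorem smul_def (t : T) (x : PointMod z) : t • x = (z t : k) • x := rfl

instance : IsScalarTower k T (PointMod z) :=
  ⟨fun a t x => by
    rw [smul_def, smul_def, map_smul, smul_assoc]⟩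

theorem finrank_eq_one : Module.finrank k (PointMod z) = 1 := Module.finrank_self k

end PointMod

end Points

section Restrict

variable {k H T : Type*} [Field k] [CommRing H] [CommRing T] [Algebra k H] [Algebra k T]
  [Algebra H T] [IsScalarTower k H T] (z : T →ₐ[k] k)

/-- The restriction of the point `z` of `T` to `H`. -/
abbrev restrictPoint : H →ₐ[k] k := z.comp (IsScalarTower.toAlgHom k H T)

/-- `PointMod z` as an `H`-module by restriction of scalars.  Not an instance. -/
@[reducible] def restrictModule : Module H (PointMod z) :=
  Module.compHom (PointMod z) (algebraMap H T)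

theorem isScalarTower_restrict₁ :
    letI := restrictModule (H := H) z
    IsScalarTower k H (PointMod z) := by
  let _ := restrictModule (H := H) z
  refine ⟨fun a h x => ?_⟩
  show algebraMap H T (a • h) • x = a • (algebraMap H T h • x)
  rw [Algebra.smul_def, map_mul, ← IsScalarTower.algebraMap_apply k H T, mul_smul,
    algebraMap_smul]

omit [Algebra k H] [IsScalarTower k H T] in
theorem isScalarTower_restrict₂ :
    letI := restrictModule (H := H) z
    IsScalarTower H T (PointMod z) := by
  let _ := restrictModule (H := H) z
  refine ⟨fun h t x => ?_⟩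
  show (h • t) • x = algebraMap H T h • (t • x)
  rw [Algebra.smul_def, mul_smul]

/-- `PointMod z` restricted to `H` is `PointMod (restrictPoint z)`. -/
def restrictEquiv :
    letI := restrictModule (H := H) z
    PointMod z ≃ₗ[H] PointMod (restrictPoint (H := H) z) :=
  letI := restrictModule (H := H) z
  { toFun := fun x => x
    invFun := fun x => x
    map_add' := fun _ _ => rfl
    map_smul' := fun _ _ => rfl
    left_inv := fun _ => rfl
    right_inv := fun _ => rfl }

end Restrict

section B3

universe u

variable {k H T : Type u} [Field k] [IsAlgClosed k] [CommRing H] [CommRing T] [Algebra k H]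
  [Algebra k T] [Algebra H T] [IsScalarTower k H T] [Algebra.FormallyEtale H T]

/-- **(B3)**: if the tangent space `Der_k(H, k_{z₀})` has dimension `g` at every `k`-point `z₀` of
`H`, then every nontrivial standard smooth `k`-algebra `T` which is formally etale over `H` (e.g. a
localisation `H[1/f]`) is standard smooth of relative dimension `g`. -/
theorem isStandardSmoothOfRelativeDimension_of_forall_point [Nontrivial T]
    [Algebra.IsStandardSmooth k T] (g : ℕ)
    (hg : ∀ z₀ : H →ₐ[k] k, Module.finrank k (Derivation k H (PointMod z₀)) = g) :
    Algebra.IsStandardSmoothOfRelativeDimension g k T := by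
  obtain ⟨z⟩ := exists_algHom_of_finiteType (k := k) (T := T)
  let _ := restrictModule (H := H) z
  have h1 : IsScalarTower k H (PointMod z) := isScalarTower_restrict₁ z
  have h2 : IsScalarTower H T (PointMod z) := isScalarTower_restrict₂ z
  refine isStandardSmoothOfRelativeDimension_of_finrank_derivation_of_formallyEtale k H T
    (PointMod z) (PointMod.finrank_eq_one z) g ?_
  rw [← hg (restrictPoint z)]
  exact (((restrictEquiv (H := H) z).compDer (R := k)).restrictScalars k).finrank_eq

end B3

end Fermat.Agent.AV.DimJ76.RankOmega96
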